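import Fermat.Agent.LT.A2.Kernel
import Fermat.Agent.LT.T1.Spec

/-!
# Row LT, tower A2, block THETA -- level 4: the cut of the station `WeilLocalC` (helper950)

    WeilLocalC ⟸ (∀ K, T1Out K) + WeilExC + TorusOpenC
                   + LiftContC + LiftBddC + WhitContC + WhitSumC + WhitMeanC + WhitHeckeC
                                                                     (`weilLocal_of_leaves`)

The cut is HORIZONTAL: the construction `WeilExC` produces the data together with a CERTIFICATE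
`IsStd D η` ("the family is the restricted tensor product of the local Weil representations applied
to the standard vectors"), written in function form on the adelic groups (no local type occurs:
a local object at `v` is an adelic object supported at `v`, as in `A0`); every analytic property of
the lift and of its Whittaker function is a consumer of the certificate.

## The certificate (all fields are TRUE for `F g m = ⊗_v r_v(g_v, m_v) Φ_v`)

* `quad`, `diagA`, `torA`: the ADELIC Borel formulas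
  `F (t(a) g) m ξ = η(a) |a|_𝔸 F g m (a ξ)` (`a` an idele, `η` the quadratic character of `L/K`),
  `F (d(det μ) g) (μ m) ξ = |det μ|_𝔸^{-1/2} F g m (μ⁻¹ ξ)` (`μ ∈ T(𝔸_K)`);
* `good_*`: at the finite places `v ∤ π.level`: `t`, `n` integral, `t² - 4n` a unit, `χT`, `η`,
  `ψ` unramified, the norm is onto the units, `Φ_v = 1_{𝒪_v²}` (`good_std`), invariance under
  `{(k, κ) ∈ GL₂(𝒪_v) × T(𝒪_v) : det k = det κ}` (`good_inv`);
* `cpx`: at a complex place `u`: `ψ_u(x) = exp(4πi Re(c x))`, `Φ_u = exp(-2π|c| (|z₁|² + |z₂|²))`,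
  `z_i = ξ₁ + ω_i ξ₂` the split coordinates;
* `decay`: on a compact set of admissible pairs the functions `F g m` are supported in a fixed
  compact set at the finite places and have a uniform Gaussian bound at the infinite places;
* `orb_dom`, `ne_zero`: the orbital integral over `T¹(𝔸_K)` is dominated on compact sets, and does
  not vanish identically.

Definitions only, plus the PROVED top `weilLocal_of_leaves`; no `sorry`, nothing assumed.
-/

set_option autoImplicit false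

open IsDedekindDomain NumberField AutomorphicForm MeasureTheory
open scoped MatrixGroups Topology

noncomputable section

namespace Fermat.Agent.LT.A2

open Fermat.Agent.LT.H130 Fermat.Agent.LT.H556

namespace WL

/-! ## Vocabulary: adelic objects supported at one place -/

section Vocab

variable {K : Type} [Field K] [NumberField K]

/-- The adele `x` is supported at the finite place `v`. -/
def AdlAtFin (v : HeightOneSpectrum (𝓞 K)) (x : A0.Adl K) : Prop :=
  (∀ w : InfinitePlace K, x.1 w = 0) ∧ ∀ v' : HeightOneSpectrum (𝓞 K), v' ≠ v → x.2 v' = 0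

/-- The adele `x` is supported at the infinite place `u`. -/
def AdlAtInf (u : InfinitePlace K) (x : A0.Adl K) : Prop :=
  (∀ w : InfinitePlace K, w ≠ u → x.1 w = 0) ∧ ∀ v : HeightOneSpectrum (𝓞 K), x.2 v = 0

/-- The vectors `ξ`, `ξ'` of `𝔸_K²` have the same components at every place different from the
finite place `v`. -/
def AgreeOffFin (v : HeightOneSpectrum (𝓞 K)) (ξ ξ' : A0.Adl K × A0.Adl K) : Prop :=
  (∀ w : InfinitePlace K, ξ.1.1 w = ξ'.1.1 w ∧ ξ.2.1 w = ξ'.2.1 w) ∧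
    ∀ v' : HeightOneSpectrum (𝓞 K), v' ≠ v → ξ.1.2 v' = ξ'.1.2 v' ∧ ξ.2.2 v' = ξ'.2.2 v'

/-- The vectors `ξ`, `ξ'` of `𝔸_K²` have the same components at every place different from the
infinite place `u`. -/
def AgreeOffInf (u : InfinitePlace K) (ξ ξ' : A0.Adl K × A0.Adl K) : Prop :=
  (∀ w : InfinitePlace K, w ≠ u → ξ.1.1 w = ξ'.1.1 w ∧ ξ.2.1 w = ξ'.2.1 w) ∧
    ∀ v : HeightOneSpectrum (𝓞 K), ξ.1.2 v = ξ'.1.2 v ∧ ξ.2.2 v = ξ'.2.2 v

/-- The components at `v` of the vector `ξ` are integral. -/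
def VecIntegralAt (v : HeightOneSpectrum (𝓞 K)) (ξ : A0.Adl K × A0.Adl K) : Prop :=
  ξ.1.2 v ∈ v.adicCompletionIntegers K ∧ ξ.2.2 v ∈ v.adicCompletionIntegers K

/-- `s = t(a) = diag(a, a⁻¹)`, `a` an idele. -/
def IsDiagSLA (s : A0.G K) (a : (A0.Adl K)ˣ) : Prop :=
  (s : Matrix (Fin 2) (Fin 2) (A0.Adl K))
    = !![(a : A0.Adl K), 0; 0, ((a⁻¹ : (A0.Adl K)ˣ) : A0.Adl K)]

/-- `d = d(a) = diag(1, a)`, `a` an idele. -/
def IsDiagOneA (d : A0.G K) (a : (A0.Adl K)ˣ) : Prop :=
  (d : Matrix (Fin 2) (Fin 2) (A0.Adl K)) = !![1, 0; 0, (a : A0.Adl K)]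

/-- `κ ∈ T(𝒪_v)`: an element of the torus supported at `v`, integral with its inverse. -/
def InTorusIntAt (t n : K) (v : HeightOneSpectrum (𝓞 K)) (κ : A0.G K) : Prop :=
  InTorus t n κ ∧ A0.IsLocalAtFin v κ ∧ A0.IsIntegralAt v κ ∧ A0.IsIntegralAt v κ⁻¹

/-- `k ∈ GL₂(𝒪_v)`: supported at `v`, integral with its inverse. -/
def InMaxCompactAt (v : HeightOneSpectrum (𝓞 K)) (k : A0.G K) : Prop :=
  A0.IsLocalAtFin v k ∧ A0.IsIntegralAt v k ∧ A0.IsIntegralAt v k⁻¹

/-- The place `v` is INERT for the torus: no integral element of `T(K_v)` has determinant a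
uniformiser (the hypothesis of the second half of `InducedAtT`). -/
def IsInertAt (t n : K) (v : HeightOneSpectrum (𝓞 K)) : Prop :=
  ∀ m : A0.G K, InTorus t n m → A0.IsLocalAtFin v m → A0.IsIntegralAt v m →
    Valued.v (A0.finComp v m).det ≠ WithZero.exp (-1 : ℤ)

/-- **The quadratic character** of the torus: a continuous character of the idele group with
values `± 1`, trivial on the principal ideles and on the norms (determinants) of `T(𝔸_K)`. -/
structure IsQuadChar (t n : K) (η : (A0.Adl K)ˣ → ℂ) : Prop where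
  mul : ∀ a b : (A0.Adl K)ˣ, η (a * b) = η a * η b
  sq : ∀ a : (A0.Adl K)ˣ, η a = 1 ∨ η a = -1
  cont : Continuous η
  rat : ∀ x : Kˣ, η (Units.map (algebraMap K (A0.Adl K)).toMonoidHom x) = 1
  norm : ∀ m : A0.G K, InTorus t n m → η (Matrix.GeneralLinearGroup.det m) = 1

/-- The Gaussian at the complex place `u`, in the split coordinates `z_i = ξ₁ + ω_i ξ₂`
(`ω₁`, `ω₂` the roots of `X² - tX + n` in `K_u = ℂ`), for the character
`ψ_u(x) = exp(4πi Re(c x))`:  `exp(-2π |c| (|z₁|² + |z₂|²))`. -/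
def gauss (u : InfinitePlace K) (c ω₁ ω₂ : ℂ) (ξ : A0.Adl K × A0.Adl K) : ℂ :=
  Complex.exp (-((2 * Real.pi * ‖c‖ *
    (‖InfinitePlace.Completion.extensionEmbedding u (ξ.1.1 u)
        + ω₁ * InfinitePlace.Completion.extensionEmbedding u (ξ.2.1 u)‖ ^ 2
      + ‖InfinitePlace.Completion.extensionEmbedding u (ξ.1.1 u)
        + ω₂ * InfinitePlace.Completion.extensionEmbedding u (ξ.2.1 u)‖ ^ 2) : ℝ) : ℂ))

end Vocab

/-! ## The certificate -/

section Cert

variable {K : Type} [Field K] [NumberField K]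

/-- **The certificate**: the Weil family of `D` is STANDARD (see the header). -/
structure IsStd (D : KData K) (η : (A0.Adl K)ˣ → ℂ) : Prop where
  quad : IsQuadChar D.t D.n η
  /-- `F (t(a) g) m ξ = η(a) |a|_𝔸 F g m (a ξ)`, `a` an idele. -/
  diagA : ∀ (s : A0.G K) (a : (A0.Adl K)ˣ), IsDiagSLA s a →
    ∀ (g m : A0.G K) (ξ : A0.Adl K × A0.Adl K), Adm D.t D.n g m →
      D.F (s * g) m ξ
        = η a * ((T1.adNorm K (a : A0.Adl K) : ℝ) : ℂ) * D.F g m ((a : A0.Adl K) • ξ)
  /-- `|det μ|_𝔸^{1/2} F (d(det μ) g) (μ m) ξ = F g m (μ⁻¹ ξ)`, `μ ∈ T(𝔸_K)`. -/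
  torA : ∀ μ' d : A0.G K, InTorus D.t D.n μ' → IsDiagOneA d (Matrix.GeneralLinearGroup.det μ') →
    ∀ (g m : A0.G K) (ξ : A0.Adl K × A0.Adl K), Adm D.t D.n g m →
      ((Real.sqrt (T1.adNorm K ((Matrix.GeneralLinearGroup.det μ' : (A0.Adl K)ˣ) : A0.Adl K))
          : ℝ) : ℂ) * D.F (d * g) (μ' * m) ξ
        = D.F g m (actV μ'⁻¹ ξ)
  /-- At `v ∤ π.level`: `t`, `n` are integral and the discriminant `t² - 4n` is a unit. -/
  good_int : ∀ v : HeightOneSpectrum (𝓞 K), ¬ v.asIdeal ∣ D.π.level →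
    Valued.v (algebraMap K (v.adicCompletion K) D.t) ≤ 1 ∧
    Valued.v (algebraMap K (v.adicCompletion K) D.n) ≤ 1 ∧
    Valued.v (algebraMap K (v.adicCompletion K) (D.t ^ 2 - 4 * D.n)) = 1
  /-- At `v ∤ π.level`: `χT` is trivial on `T(𝒪_v)`. -/
  good_char : ∀ v : HeightOneSpectrum (𝓞 K), ¬ v.asIdeal ∣ D.π.level →
    ∀ κ : A0.G K, InTorusIntAt D.t D.n v κ → D.χT κ = 1
  /-- At `v ∤ π.level`: the norm `T(𝒪_v) → 𝒪_v^×` is onto. -/
  good_norm : ∀ v : HeightOneSpectrum (𝓞 K), ¬ v.asIdeal ∣ D.π.level →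
    ∀ a : (A0.Adl K)ˣ, IsUnitIdeleAt v a →
      ∃ κ : A0.G K, InTorusIntAt D.t D.n v κ ∧ Matrix.GeneralLinearGroup.det κ = a
  /-- At `v ∤ π.level`: `η` is unramified, and `η(ϖ_v) = -1` if `v` is inert. -/
  good_eta : ∀ v : HeightOneSpectrum (𝓞 K), ¬ v.asIdeal ∣ D.π.level →
    (∀ a : (A0.Adl K)ˣ, IsUnitIdeleAt v a → η a = 1) ∧
    (IsInertAt D.t D.n v → ∀ a : (A0.Adl K)ˣ, IsUnifIdeleAt v a → η a = -1)
  /-- At `v ∤ π.level`: `ψ_v` has conductor `𝒪_v`. -/
  good_psi : ∀ v : HeightOneSpectrum (𝓞 K), ¬ v.asIdeal ∣ D.π.level →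
    (∀ x : A0.Adl K, AdlAtFin v x → x.2 v ∈ v.adicCompletionIntegers K → D.ψ x = 1) ∧
    ∃ x : A0.Adl K, AdlAtFin v x ∧ Valued.v (x.2 v) = WithZero.exp (1 : ℤ) ∧ D.ψ x ≠ 1
  /-- At `v ∤ π.level`: `Φ_v = 1_{𝒪_v²}`. -/
  good_std : ∀ v : HeightOneSpectrum (𝓞 K), ¬ v.asIdeal ∣ D.π.level →
    ∀ g m : A0.G K, Adm D.t D.n g m → A0.TrivAtFin v g → A0.TrivAtFin v m →
      (∀ ξ : A0.Adl K × A0.Adl K, ¬ VecIntegralAt v ξ → D.F g m ξ = 0) ∧
      ∀ ξ ξ' : A0.Adl K × A0.Adl K, AgreeOffFin v ξ ξ' → VecIntegralAt v ξ → VecIntegralAt v ξ' →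
        D.F g m ξ = D.F g m ξ'
  /-- At `v ∤ π.level`: invariance under `{(k, κ) ∈ GL₂(𝒪_v) × T(𝒪_v) : det k = det κ}`. -/
  good_inv : ∀ v : HeightOneSpectrum (𝓞 K), ¬ v.asIdeal ∣ D.π.level →
    ∀ k κ : A0.G K, InMaxCompactAt v k → InTorusIntAt D.t D.n v κ →
      Matrix.GeneralLinearGroup.det k = Matrix.GeneralLinearGroup.det κ →
      ∀ (g m : A0.G K) (ξ : A0.Adl K × A0.Adl K), Adm D.t D.n g m →
        D.F (g * k) (m * κ) ξ = D.F g m ξ
  /-- At a complex place `u`: the character `ψ_u` and the Gaussian. -/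
  cpx : ∀ u : InfinitePlace K, u.IsComplex → ∃ c : ℂ, c ≠ 0 ∧
    (∀ x : A0.Adl K, AdlAtInf u x → D.ψ x = Complex.exp (4 * Real.pi * Complex.I *
        (((c * InfinitePlace.Completion.extensionEmbedding u (x.1 u)).re : ℝ) : ℂ))) ∧
    ∀ ω₁ ω₂ : ℂ, ω₁ + ω₂ = u.embedding D.t → ω₁ * ω₂ = u.embedding D.n →
      ∀ g m : A0.G K, Adm D.t D.n g m → A0.TrivAtInf u g → A0.TrivAtInf u m →
        ∀ ξ ξ' : A0.Adl K × A0.Adl K, AgreeOffInf u ξ ξ' →
          D.F g m ξ * gauss u c ω₁ ω₂ ξ' = D.F g m ξ' * gauss u c ω₁ ω₂ ξ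
  /-- Invariance under the maximal compact subgroup of the torus at a complex place. -/
  cpx_inv : ∀ (u : InfinitePlace K) (k κ : A0.G K), A0.IsArchCompact u k → InTorus D.t D.n κ →
    A0.IsArchCompact u κ → Matrix.GeneralLinearGroup.det k = Matrix.GeneralLinearGroup.det κ →
    ∀ (g m : A0.G K) (ξ : A0.Adl K × A0.Adl K), Adm D.t D.n g m →
      D.F (g * k) (m * κ) ξ = D.F g m ξ
  /-- Uniform support and Gaussian decay on the compact sets of admissible pairs. -/
  decay : ∀ C : Set (A0.G K × A0.G K), IsCompact C →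
    ∃ (B : Set (FiniteAdeleRing (𝓞 K) K × FiniteAdeleRing (𝓞 K) K)) (A δ : ℝ),
      IsCompact B ∧ 0 < δ ∧
      ∀ p : A0.G K × A0.G K, p ∈ C → Adm D.t D.n p.1 p.2 → ∀ ξ : A0.Adl K × A0.Adl K,
        ((ξ.1.2, ξ.2.2) ∉ B → D.F p.1 p.2 ξ = 0) ∧
        ‖D.F p.1 p.2 ξ‖
          ≤ A * Real.exp (-δ * ∑ w : InfinitePlace K, (‖ξ.1.1 w‖ ^ 2 + ‖ξ.2.1 w‖ ^ 2))
  /-- The orbital integrand is dominated on the compact sets of admissible pairs. -/
  orb_dom : ∀ C : Set (A0.G K × A0.G K), IsCompact C →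
    ∃ h : A0.G K → ℝ,
      (letI : MeasurableSpace (A0.G K) := borel (A0.G K)
       IntegrableOn h {m | InTorus1 D.t D.n m} D.μT) ∧
      ∀ p : A0.G K × A0.G K, p ∈ C → Adm D.t D.n p.1 p.2 → ∀ m : A0.G K, InTorus1 D.t D.n m →
        ‖D.F p.1 (m * p.2) (1, 0)‖ ≤ h m
  /-- The orbital integral does not vanish identically. -/
  ne_zero : ∃ g mg : A0.G K, Adm D.t D.n g mg ∧
    D.intT {m | InTorus1 D.t D.n m} (fun m => D.F g (m * mg) (1, 0) * D.χT (m * mg)) ≠ 0

end Cert

/-! ## The leaves -/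

section Leaves

/-- **A2.03.1 WEIL-EX (the construction; STATION).**  For a torus character `χT` over a totally
complex field there are GOOD data with torus character `χT`, a level contained in any prescribed
nonzero ideal, the induced data, and the certificate.
`F g m = ⊗_v r_v(g_v, m_v) Φ_v`; sub-leaves (memo §5): LOC-FIN (local Weil representation at the
finite places: Schwartz--Bruhat space, Fourier transform, Weil index), LOC-CPX (Gaussian at the
complex places), UNRAM (`Φ_v = 1_{𝒪_v²}` is fixed at almost all `v`), RAM (choice of `Φ_v` at the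
bad places with non-vanishing local orbital integral), PROD (restricted product, product measure),
INDEX (product formula of the Weil indices = global Weyl formula with constant `1`), TORUS-MEAS
(Haar measure of `T¹(𝔸_K)`, compact fundamental domain), REG (`IsRegular`).
Weil 1964 §§ 13--16, 39--41; JL §1; Shalika--Tanaka §1; Bump §4.8. -/
def WeilExC : Prop :=
  ∀ (K : Type) [Field K] [NumberField K] (t n : K) (χT : A0.G K → ℂ),
    IsTorusChar t n χT → (∀ u : InfinitePlace K, u.IsComplex) →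
    ∀ 𝔡 : Ideal (𝓞 K), 𝔡 ≠ ⊥ →
    ∃ (D : KData K) (η : (A0.Adl K)ˣ → ℂ),
      D.t = t ∧ D.n = n ∧ D.χT = χT ∧ D.π.level ≤ 𝔡 ∧ D.Good ∧
        InducedDataT t n χT D.π ∧ IsStd D η

/-- **A2.03.2 TORUS-OPEN.**  The norm `T(𝔸_K) → 𝔸_K^×` is an open map, in function form: if
`(g₀, m₀)` is admissible, every `g` near `g₀` has an admissible partner `m` near `m₀`
(in particular `GL₂(𝔸_K)⁺` is open).  Local: the norm of a separable quadratic algebra is open
and is onto the units at almost all places. -/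
def TorusOpenC : Prop :=
  ∀ (K : Type) [Field K] [NumberField K] (t n : K), (∀ x : K, x ^ 2 - t * x + n ≠ 0) →
    ∀ g₀ m₀ : A0.G K, Adm t n g₀ m₀ → ∀ V : Set (A0.G K), V ∈ 𝓝 m₀ →
      ∃ U : Set (A0.G K), U ∈ 𝓝 g₀ ∧ ∀ g ∈ U, ∃ m ∈ V, Adm t n g m

/-- **A2.03.3 LIFT-CONT.**  The theta lift of standard good data is continuous
(`GL₂(K) GL₂(𝔸_K)⁺` is open and closed; on `GL₂(𝔸_K)⁺` the kernel is continuous on the admissible
pairs and the fundamental domain is relatively compact). -/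
def LiftContC : Prop :=
  TorusOpenC →
  ∀ (K : Type) [Field K] [NumberField K] (D : KData K) (η : (A0.Adl K)ˣ → ℂ),
    T1.T1Out K → D.Good → IsStd D η →
    ∀ φ : A0.G K → ℂ, D.IsLift φ → Continuous φ

/-- **A2.03.4 LIFT-BDD.**  The theta lift of standard good data is bounded: reduction theory
(tower T1), the central character `η χT` is unitary, on a Siegel set the term `ξ = 0` of the
kernel is killed by `∫_{DT} χT = 0` and the other terms decay (`decay`). -/
def LiftBddC : Prop :=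
  TorusOpenC →
  ∀ (K : Type) [Field K] [NumberField K] (D : KData K) (η : (A0.Adl K)ˣ → ℂ),
    (∀ u : InfinitePlace K, u.IsComplex) → T1.T1Out K → D.Good → IsStd D η →
    ∀ φ : A0.G K → ℂ, D.IsLift φ → ∃ C : ℝ, ∀ g : A0.G K, ‖φ g‖ ≤ C

/-- **A2.03.5 WHIT-CONT.**  The Whittaker function of standard good data is continuous
(`GL₂(𝔸_K)⁺` is open and closed; dominated convergence, `orb_dom`). -/
def WhitContC : Prop :=
  TorusOpenC →
  ∀ (K : Type) [Field K] [NumberField K] (D : KData K) (η : (A0.Adl K)ˣ → ℂ),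
    T1.T1Out K → D.Good → IsStd D η →
    ∀ W : A0.G K → ℂ, D.IsWhit W → Continuous W

/-- **A2.03.6 WHIT-SUM.**  Normal summability of `α ↦ W(diag(α, 1) g)` on the compact sets:
`∑_α |W(diag(α,1) g)| ≤ ∫_{DT} ∑_{ξ ∈ K² ∖ 0} |F g (m m_g) ξ| dm` (`diagK`, `torK`, `tor1`,
unfolding over `T¹(K)`, `IsRegular.loc_summable`). -/
def WhitSumC : Prop :=
  TorusOpenC →
  ∀ (K : Type) [Field K] [NumberField K] (D : KData K) (η : (A0.Adl K)ˣ → ℂ),
    T1.T1Out K → D.Good → IsStd D η →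
    ∀ W : A0.G K → ℂ, D.IsWhit W →
      ∀ C : Set (A0.G K), IsCompact C → ∃ b : Kˣ → ℝ, Summable b ∧
        ∀ d : Kˣ → A0.G K, IsRatDiag d → ∀ (α : Kˣ) (g : A0.G K), g ∈ C →
          ‖W (d α * g)‖ ≤ b α

/-- **A2.03.7 WHIT-MEAN.**  The Whittaker function of standard good data has the mean-value
property of parameter `0` at the complex places: by the Iwasawa decomposition at `u`, `cpx`,
`cpx_inv`, `diagA`, `torA` and `unip`, as a function of `g_u = n(x) diag(y, 1) z k` it is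
`ψ_u(x) · |y| K₀(4π |c| |y|) ·` (a function of the other components), an eigenfunction of the
Laplacian of `ℍ³` of eigenvalue `-1`; mean-value property of the eigenfunctions (helper470). -/
def WhitMeanC : Prop :=
  ∀ (K : Type) [Field K] [NumberField K] (D : KData K) (η : (A0.Adl K)ˣ → ℂ),
    T1.T1Out K → D.Good → IsStd D η →
    ∀ W : A0.G K → ℂ, D.IsWhit W →
      ∀ w : InfinitePlace K, w.IsComplex → A0.MeanValueComplex W w

/-- **A2.03.8 WHIT-HECKE.**  The Whittaker function of standard good data is a Hecke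
eigenfunction at `v ∤ π.level` with the induced eigenvalues: Iwasawa decomposition at `v`,
`good_*`, `diagA`, `torA`, `unip`, invariance of `μT`; the identity is reduced to the values
`W(g diag(ϖ_v^k, 1))`:  `q^{-k/2} ∑_{i+j=k} χT(m₁)^i χT(m₂)^j` (split), and
`q^{-k/2} χT(ϖ_v)^{k/2}` for `k ≥ 0` even, `0` otherwise (inert). -/
def WhitHeckeC : Prop :=
  ∀ (K : Type) [Field K] [NumberField K] (D : KData K) (η : (A0.Adl K)ˣ → ℂ),
    T1.T1Out K → D.Good → IsStd D η → InducedDataT D.t D.n D.χT D.π →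
    ∀ W : A0.G K → ℂ, D.IsWhit W →
      ∀ v : HeightOneSpectrum (𝓞 K), ¬ v.asIdeal ∣ D.π.level →
        A0.IsHeckeEigenAt W v (D.π.a v) (D.π.b v)

/-- **A2.03.9 WHIT-NE** is PROVED below (`whit_ne_zero950`): `ne_zero` of the certificate. -/
theorem whit_ne_zero950 {K : Type} [Field K] [NumberField K] (D : KData K)
    (η : (A0.Adl K)ˣ → ℂ) (hstd : IsStd D η) (W : A0.G K → ℂ) (hW : D.IsWhit W) :
    ∃ g : A0.G K, W g ≠ 0 := by
  obtain ⟨g, mg, hadm, hne⟩ := hstd.ne_zero
  exact ⟨g, by rw [hW.formula g mg hadm]; exact hne⟩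

/-- **The top of the station**: `WeilLocalC` from the leaves and the output of tower T1. -/
theorem weilLocal_of_leaves
    (hT1 : ∀ (K : Type) [Field K] [NumberField K], T1.T1Out K)
    (hex : WeilExC) (hopen : TorusOpenC) (hlc : LiftContC) (hlb : LiftBddC)
    (hwc : WhitContC) (hws : WhitSumC) (hwm : WhitMeanC) (hwh : WhitHeckeC) :
    WeilLocalC := by
  intro K _ _ t n χT hχ hcpx 𝔡 h𝔡
  obtain ⟨D, η, ht, hn, hχT, hlev, hgood, hind, hstd⟩ := hex K t n χT hχ hcpx 𝔡 h𝔡
  refine ⟨D, ht, hn, hχT, hlev, hgood, hind, ?_, ?_⟩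
  · intro φ hφ
    exact ⟨hlc hopen K D η (hT1 K) hgood hstd φ hφ,
      hlb hopen K D η hcpx (hT1 K) hgood hstd φ hφ⟩
  · intro W hW
    refine ⟨hwc hopen K D η (hT1 K) hgood hstd W hW, whit_ne_zero950 D η hstd W hW,
      hws hopen K D η (hT1 K) hgood hstd W hW, hwm K D η (hT1 K) hgood hstd W hW, ?_⟩
    have hind' : InducedDataT D.t D.n D.χT D.π := by
      rw [ht, hn, hχT]; exact hind
    exact hwh K D η (hT1 K) hgood hstd hind' W hW

end Leaves

end WL

end Fermat.Agent.LT.A2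

end
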