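import Fermat.Agent.LT.A2.KernelTop
import Fermat.Agent.LT.A2.WeilLocal

/-!
# Row LT, tower A2 -- Spec v2 (ADDITIVE): the tops over TOTALLY COMPLEX fields (helper950)

Reason (FAIL-RISK #15811, helper438): tower CFT covers totally complex fields only, so the
interface `HasseNormC` (ANY number field) of Spec v1 is true but out of reach.  Nothing of v1 is
edited; this file adds

* `HasseNormAt K t n` : Hasse's norm theorem for ONE quadratic torus;
* `HasseNormTC`       : Hasse's norm theorem over the totally complex fields (interface with CFT);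
* `LiftExAtC`, `ExpAtC` : the leaves `LiftExC`, `ExpC` with the hypothesis `HasseNormAt K D.t D.n`
  instead of `HasseNormC` (STRONGER than v1: `liftExC_of_at`, `expC_of_at`);
* `WL.WhitSumAtC` (v2.1, FAIL #15865 of helper346): the leaf `WL.WhitSumC` with the hypothesis
  `HasseNormAt K D.t D.n` (without Hasse the `α ∈ K^× ∩ det T(𝔸_K)` which are not norms of `T(K)`
  are out of reach of `IsRegular.loc_summable`);
* `weilLocal_of_leaves_tc` : the top of the station `WeilLocalC`, tower T1 being used at totally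
  complex fields only;
* `kernelT_of_leaves_tc`, `a2_top_tc` : the tops, `A2_556` VERBATIM.

THE TOWER IS CLOSED BY `a2_top_tc` (or by `a2_top` of v1).
-/

set_option autoImplicit false

open IsDedekindDomain NumberField AutomorphicForm MeasureTheory
open scoped MatrixGroups

noncomputable section

namespace Fermat.Agent.LT.A2

open Fermat.Agent.LT.H130 Fermat.Agent.LT.H556

/-- **Hasse's norm theorem for the torus `(t, n)` over `K`**: an element of `K^×` which is the
determinant of an element of `T(𝔸_K)` is the determinant of an element of `T(K)`. -/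
def HasseNormAt (K : Type) [Field K] [NumberField K] (t n : K) : Prop :=
  ∀ (a : K) (m : A0.G K), InTorus t n m →
    ((Matrix.GeneralLinearGroup.det m : (A0.Adl K)ˣ) : A0.Adl K) = algebraMap K (A0.Adl K) a →
    ∃ y : A0.G K, InTorusRat t n y ∧
      ((Matrix.GeneralLinearGroup.det y : (A0.Adl K)ˣ) : A0.Adl K) = algebraMap K (A0.Adl K) a

/-- **HASSE-NORM over the totally complex fields (interface with tower CFT).** -/
def HasseNormTC : Prop :=
  ∀ (K : Type) [Field K] [NumberField K], (∀ u : InfinitePlace K, u.IsComplex) →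
    ∀ t n : K, (∀ x : K, x ^ 2 - t * x + n ≠ 0) → HasseNormAt K t n

/-- **LIFT-EX, local form of the hypothesis.** -/
def LiftExAtC : Prop :=
  ∀ (K : Type) [Field K] [NumberField K] (D : KData K), HasseNormAt K D.t D.n →
    D.Good → D.ThetaInv → ∃ φ : A0.G K → ℂ, D.IsLift φ

/-- **EXP, local form of the hypothesis.** -/
def ExpAtC : Prop :=
  ∀ (K : Type) [Field K] [NumberField K] (D : KData K), HasseNormAt K D.t D.n →
    D.Good → D.ThetaInv →
    ∀ φ W : A0.G K → ℂ, D.IsLift φ → D.IsWhit W →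
      (∀ nU : A0.Adl K → A0.G K, IsUpperUnip nU →
        ∀ (x : A0.Adl K) (g : A0.G K), W (nU x * g) = D.ψ x * W g) ∧
      ∀ d : Kˣ → A0.G K, IsRatDiag d → ∀ g : A0.G K, φ g = ∑' α : Kˣ, W (d α * g)

theorem hasseNormAt_of_hasseNormC (h : HasseNormC) (K : Type) [Field K] [NumberField K]
    (t n : K) (hirr : ∀ x : K, x ^ 2 - t * x + n ≠ 0) : HasseNormAt K t n :=
  fun a m hm hdet => h K t n hirr a m hm hdet

theorem hasseNormTC_of_hasseNormC (h : HasseNormC) : HasseNormTC :=
  fun K _ _ _ t n hirr => hasseNormAt_of_hasseNormC h K t n hirr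

/-- The v2 leaf is stronger than the v1 leaf. -/
theorem liftExC_of_at (h : LiftExAtC) : LiftExC :=
  fun hH K _ _ D hGood hinv =>
    h K D (hasseNormAt_of_hasseNormC hH K D.t D.n hGood.torus.irred) hGood hinv

/-- The v2 leaf is stronger than the v1 leaf. -/
theorem expC_of_at (h : ExpAtC) : ExpC :=
  fun hH K _ _ D hGood hinv =>
    h K D (hasseNormAt_of_hasseNormC hH K D.t D.n hGood.torus.irred) hGood hinv

/-- **A2.03.6b WHIT-SUM with Hasse** (v2.1).  Normal summability of `α ↦ W(diag(α, 1) g)` on the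
compact sets.  `W(diag(α, 1) g) = 0` unless `α ∈ det T(𝔸_K)`, i.e. (Hasse) `α = det μ_α`,
`μ_α ∈ T(K)`; then `W(diag(α, 1) g) = ∫_{T¹(𝔸)} F g (m m_g) (μ_α⁻¹ α e₁) χT(m m_g) dm`
(`diagK`, `torK`), and `∑_α |W(diag(α,1) g)| ≤ ∫_{DT} ∑_{ξ ∈ K² ∖ 0} |F g (m m_g) ξ| dm`
(unfolding over `T¹(K)`, `tor1`, `IsRegular.loc_summable`). -/
def WL.WhitSumAtC : Prop :=
  WL.TorusOpenC →
  ∀ (K : Type) [Field K] [NumberField K] (D : KData K) (η : (A0.Adl K)ˣ → ℂ),
    HasseNormAt K D.t D.n → T1.T1Out K → D.Good → WL.IsStd D η →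
    ∀ W : A0.G K → ℂ, D.IsWhit W →
      ∀ C : Set (A0.G K), IsCompact C → ∃ b : Kˣ → ℝ, Summable b ∧
        ∀ d : Kˣ → A0.G K, IsRatDiag d → ∀ (α : Kˣ) (g : A0.G K), g ∈ C →
          ‖W (d α * g)‖ ≤ b α

/-- The v1 leaf is stronger than the v2.1 leaf. -/
theorem WL.whitSumAtC_of_whitSumC (h : WL.WhitSumC) : WL.WhitSumAtC :=
  fun hopen K _ _ D η _ h1 hgood hstd W hW => h hopen K D η h1 hgood hstd W hW

/-- **The top of the station `WeilLocalC`**, towers T1 and CFT at the totally complex fields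
only. -/
theorem weilLocal_of_leaves_tc
    (hT1 : ∀ (K : Type) [Field K] [NumberField K], (∀ u : InfinitePlace K, u.IsComplex) →
      T1.T1Out K)
    (hH : HasseNormTC)
    (hex : WL.WeilExC) (hopen : WL.TorusOpenC) (hlc : WL.LiftContC) (hlb : WL.LiftBddC)
    (hwc : WL.WhitContC) (hws : WL.WhitSumAtC) (hwm : WL.WhitMeanC) (hwh : WL.WhitHeckeC) :
    WeilLocalC := by
  intro K _ _ t n χT hχ hcpx 𝔡 h𝔡
  obtain ⟨D, η, ht, hn, hχT, hlev, hgood, hind, hstd⟩ := hex K t n χT hχ hcpx 𝔡 h𝔡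
  have h1 : T1.T1Out K := hT1 K hcpx
  have hHat : HasseNormAt K D.t D.n := hH K hcpx D.t D.n hgood.torus.irred
  refine ⟨D, ht, hn, hχT, hlev, hgood, hind, ?_, ?_⟩
  · intro φ hφ
    exact ⟨hlc hopen K D η h1 hgood hstd φ hφ, hlb hopen K D η hcpx h1 hgood hstd φ hφ⟩
  · intro W hW
    refine ⟨hwc hopen K D η h1 hgood hstd W hW, WL.whit_ne_zero950 D η hstd W hW,
      hws hopen K D η hHat h1 hgood hstd W hW, hwm K D η h1 hgood hstd W hW, ?_⟩
    have hind' : InducedDataT D.t D.n D.χT D.π := by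
      rw [ht, hn, hχT]; exact hind
    exact hwh K D η h1 hgood hstd hind' W hW

/-- **Level 3, v2**: the kernel in torus coordinates from its leaves. -/
theorem kernelT_of_leaves_tc (hWL : WeilLocalC) (hP : Poisson2C) (hH : HasseNormTC)
    (hTI : ThetaInvC) (hLE : LiftExAtC) (hWE : WhitExC) (hE : ExpAtC) (hI : InvC) :
    KernelTC := by
  intro K _ _ t n χT hT hcx 𝔡 h𝔡
  obtain ⟨D, ht, hn, hχ, hle, hGood, hind, hφ, hW⟩ := hWL K t n χT hT hcx 𝔡 h𝔡
  subst ht hn hχ
  have hHat : HasseNormAt K D.t D.n := hH K hcx D.t D.n hGood.torus.irred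
  have hinv : D.ThetaInv := hTI hP K D hGood
  obtain ⟨φ, hφL⟩ := hLE K D hHat hGood hinv
  obtain ⟨W, hWW⟩ := hWE K D hGood
  obtain ⟨hcont, hbdd⟩ := hφ φ hφL
  obtain ⟨hWc, hWne, hWsum, hWmean, hWhecke⟩ := hW W hWW
  obtain ⟨hequiv, hexp⟩ := hE K D hHat hGood hinv φ W hφL hWW
  obtain ⟨hlev, hsc, hcp⟩ := hI K D hGood φ hφL
  refine ⟨D.π, D.ψ, φ, W, ?_, hind, hle⟩
  exact
    { char := hGood.char
      cont := hcont
      bdd := hbdd
      left_inv := hφL.left_inv
      level_inv := hlev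
      arch_scalar := hsc
      arch_compact := hcp
      whit := ⟨hequiv, hWsum, hexp⟩
      W_cont := hWc
      W_ne := hWne
      W_mean := hWmean
      W_hecke := hWhecke }

/-- **THE TOWER TOP, v2**: the wall leaf `A2_556` (helper556, VERBATIM) from the leaves of tower
A2, the interfaces with towers T1 and CFT being used at totally complex fields only. -/
theorem a2_top_tc
    (hT1 : ∀ (K : Type) [Field K] [NumberField K], (∀ u : InfinitePlace K, u.IsComplex) →
      T1.T1Out K)
    (hGal : GalSeedC) (hTC : TorusCharC)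
    (hex : WL.WeilExC) (hopen : WL.TorusOpenC) (hlc : WL.LiftContC) (hlb : WL.LiftBddC)
    (hwc : WL.WhitContC) (hws : WL.WhitSumAtC) (hwm : WL.WhitMeanC) (hwh : WL.WhitHeckeC)
    (hP : Poisson2C) (hH : HasseNormTC) (hTI : ThetaInvC) (hLE : LiftExAtC) (hWE : WhitExC)
    (hE : ExpAtC) (hI : InvC)
    (hQ : AdeleQuotC) (hC : CuspOfWhitC) (hM : MeanOfWhitC) (hN : NeZeroOfWhitC) :
    WT.A2_556 :=
  a2_of_theta_galSeed
    (theta_of_leaves
      (kernel_of_leaves hTC
        (kernelT_of_leaves_tc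
          (weilLocal_of_leaves_tc hT1 hH hex hopen hlc hlb hwc hws hwm hwh)
          hP hH hTI hLE hWE hE hI))
      hQ hC hM hN)
    hGal

end Fermat.Agent.LT.A2

end
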