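import Mathlib
import Fermat.Agent.LT.H17.Board
import Fermat.Agent.LT.H130.Wall
import Fermat.Agent.LT.H556.A0
import Fermat.Agent.LT.H556.WallTop

/-!
# Row LT, tower A2 (the DIHEDRAL SEED over `E`) -- frozen interfaces

Architect helper950, co-architect helper38.  OFF-MAIN.  Board: `origin/helper17:coord/LT-board2.md`.
Tower Prop (VERBATIM): `Fermat.Agent.LT.H556.WT.A2_556` (`LT/H556/WallTop.lean`, helper556).
Memo with routes, references and sizes: `origin/helper950:coord/LT-A2-tower.md`.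

## Level 1 (this file, section `Level1`)

    A2_556  ⟸  ThetaC  +  GalSeedC                      (`a2_of_theta_galSeed`, `Top.lean`)

* `ThetaC` (AUTOMORPHIC INDUCTION, Hecke--Maass--Weil--Shalika--Tanaka, JL §12): `K` a totally
  complex number field, `L / K` quadratic, `χ` an idele class character of `L` of finite order
  which is not invariant under `Gal(L/K)`: there is a cusp form on `GL₂(𝔸_K)`, spherical of
  parameter `0` at the (complex) infinite places, with `a_v = χ(ϖ_{w₁}) + χ(ϖ_{w₂})`,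
  `b_v = χ(ϖ_{w₁}) χ(ϖ_{w₂})` at the split places `v = w₁ w₂` and `a_v = 0`, `b_v = - χ(ϖ_w)` at the
  inert places, for all `v ∤ π.level`.
* `GalSeedC` (GALOIS SIDE, needs tower CFT): for `ρ` as in `LTB.Hyp` the field `E = fieldE ρ` is a
  totally complex number field, and there are a quadratic extension `L / E` (the fixed field of
  `ρ⁻¹⟨g₀⟩`, `g₀ = [[0,-1],[1,0]]`) and an idele class character `χ` of `L` of order `4`
  (`χ = θ ∘ Artin`, `θ(g₀) = i`) as in `ThetaC`, such that every eigensystem with the induced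
  data has the data `SeedData` of `Ψ ∘ ρ`.

## Level 2

* `ThetaC ⟸ KernelC + CuspOfWhitC + MeanOfWhitC + NeZeroOfWhitC` (`theta_of_leaves`; the Hecke
  eigen-property of the sum is proved in `Top.lean`).  `KernelC` is the theta-kernel
  construction (Weil representation), cut further in `Kernel.lean`.
* `GalSeedC`: cut by helper38 (`LT/A2/H38/`), interface with tower CFT (helper53).

Definitions only in this file (no `sorry`, nothing assumed).
-/

set_option autoImplicit false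

open IsDedekindDomain NumberField AutomorphicForm
open scoped MatrixGroups

noncomputable section

namespace Fermat.Agent.LT.A2

open Fermat.Agent.LT.H130 Fermat.Agent.LT.H556

local notation "Γℚ" => (AlgebraicClosure ℚ ≃ₐ[ℚ] AlgebraicClosure ℚ)

/-! ## Ideles and idele class characters -/

section Ideles

variable {L : Type} [Field L] [NumberField L]

/-- `z` is an idele of `L` supported at the finite place `w` (component `1` at every other
place, finite or infinite). -/
def IsIdeleAt (w : HeightOneSpectrum (𝓞 L)) (z : (A0.Adl L)ˣ) : Prop :=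
  (∀ u : InfinitePlace L, (z : A0.Adl L).1 u = 1) ∧
    ∀ w' : HeightOneSpectrum (𝓞 L), w' ≠ w → (z : A0.Adl L).2 w' = 1

/-- `z` is an idele supported at `w` whose component at `w` is a uniformiser. -/
def IsUnifIdeleAt (w : HeightOneSpectrum (𝓞 L)) (z : (A0.Adl L)ˣ) : Prop :=
  IsIdeleAt w z ∧ Valued.v ((z : A0.Adl L).2 w) = WithZero.exp (-1 : ℤ)

/-- `z` is an idele supported at `w` whose component at `w` is a unit. -/
def IsUnitIdeleAt (w : HeightOneSpectrum (𝓞 L)) (z : (A0.Adl L)ˣ) : Prop :=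
  IsIdeleAt w z ∧ Valued.v ((z : A0.Adl L).2 w) = 1

/-- An IDELE CLASS CHARACTER of `L`: a continuous character of the idele group (units of the adele
ring, units topology), trivial on the principal ideles. -/
structure IsIdeleClassChar (χ : (A0.Adl L)ˣ →* ℂˣ) : Prop where
  cont : Continuous χ
  triv : ∀ x : Lˣ, χ (Units.map (algebraMap L (A0.Adl L)).toMonoidHom x) = 1

/-- `χ` has finite order. -/
def IsFiniteOrder (χ : (A0.Adl L)ˣ →* ℂˣ) : Prop :=
  ∃ n : ℕ, 0 < n ∧ ∀ z : (A0.Adl L)ˣ, χ z ^ n = 1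

/-- `χ` is unramified at `w`: trivial on the local units at `w`. -/
def UnramAt (χ : (A0.Adl L)ˣ →* ℂˣ) (w : HeightOneSpectrum (𝓞 L)) : Prop :=
  ∀ z : (A0.Adl L)ˣ, IsUnitIdeleAt w z → χ z = 1

end Ideles

/-! ## The induced data -/

section Induced

variable (K : Type) [Field K] [NumberField K] {L : Type} [Field L] [NumberField L] [Algebra K L]

/-- The place `w` of `L` lies over the place `v` of `K`. -/
def LiesOverPl (w : HeightOneSpectrum (𝓞 L)) (v : HeightOneSpectrum (𝓞 K)) : Prop :=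
  w.asIdeal.comap (algebraMap (𝓞 K) (𝓞 L)) = v.asIdeal

variable {K}

/-- The data of the automorphic induction of `χ` at the place `v` of `K`:
* two places `w₁ ≠ w₂` over `v` (split): `a = χ(ϖ_{w₁}) + χ(ϖ_{w₂})`, `b = χ(ϖ_{w₁}) χ(ϖ_{w₂})`;
* one place `w` over `v` (inert, `v` being unramified): `a = 0`, `b = - χ(ϖ_w)`. -/
def InducedAt (χ : (A0.Adl L)ˣ →* ℂˣ) (v : HeightOneSpectrum (𝓞 K)) (a b : ℂ) : Prop :=
  (∀ w₁ w₂ : HeightOneSpectrum (𝓞 L), w₁ ≠ w₂ → LiesOverPl K w₁ v → LiesOverPl K w₂ v →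
      ∀ z₁ z₂ : (A0.Adl L)ˣ, IsUnifIdeleAt w₁ z₁ → IsUnifIdeleAt w₂ z₂ →
        a = (χ z₁ : ℂ) + (χ z₂ : ℂ) ∧ b = (χ z₁ : ℂ) * (χ z₂ : ℂ)) ∧
    ∀ w : HeightOneSpectrum (𝓞 L), LiesOverPl K w v →
      (∀ w' : HeightOneSpectrum (𝓞 L), LiesOverPl K w' v → w' = w) →
      ∀ z : (A0.Adl L)ˣ, IsUnifIdeleAt w z → a = 0 ∧ b = -(χ z : ℂ)

/-- The eigensystem `π` over `K` has the data of the automorphic induction of `χ` at every place
not dividing its level. -/
def InducedData (χ : (A0.Adl L)ˣ →* ℂˣ) (π : HeckeEigensystem K ℂ) : Prop :=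
  ∀ v : HeightOneSpectrum (𝓞 K), ¬ v.asIdeal ∣ π.level → InducedAt χ v (π.a v) (π.b v)

variable (K)

/-- `χ` is NOT invariant under `Gal(L/K)`, with a witness: a place `v` of `K` which splits in `L`,
`v = w₁ w₂`, `χ` unramified at `w₁`, `w₂`, and `χ(ϖ_{w₁}) ≠ χ(ϖ_{w₂})`. -/
def NotGaloisInvariant (χ : (A0.Adl L)ˣ →* ℂˣ) : Prop :=
  ∃ (v : HeightOneSpectrum (𝓞 K)) (w₁ w₂ : HeightOneSpectrum (𝓞 L)) (z₁ z₂ : (A0.Adl L)ˣ),
    w₁ ≠ w₂ ∧ LiesOverPl K w₁ v ∧ LiesOverPl K w₂ v ∧ UnramAt χ w₁ ∧ UnramAt χ w₂ ∧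
      IsUnifIdeleAt w₁ z₁ ∧ IsUnifIdeleAt w₂ z₂ ∧ χ z₁ ≠ χ z₂

end Induced

/-! ## Level 1: the two Props -/

section Level1

/-- **THETA (automorphic induction from a quadratic extension, totally complex base).**
Hecke 1926 / Maass 1949 (classical), Weil 1964 + Shalika--Tanaka 1969 (theta kernel),
Jacquet--Langlands §12, Thm 12.2; Bump, *Automorphic forms and representations*, §4.8.
At a complex place `u` of `K` both places of `L` over `u` are complex and `χ` (finite order) is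
trivial on the connected groups `L_w^× = ℂ^×`: the component at `u` is `π(1,1)`, spherical of
parameter `0`. -/
def ThetaC : Prop :=
  ∀ (K L : Type) [Field K] [NumberField K] [Field L] [NumberField L] [Algebra K L],
    Module.finrank K L = 2 → (∀ u : InfinitePlace K, u.IsComplex) →
    ∀ χ : (A0.Adl L)ˣ →* ℂˣ, IsIdeleClassChar χ → IsFiniteOrder χ → NotGaloisInvariant K χ →
      ∃ π : HeckeEigensystem K ℂ, A0.IsCuspAdelicSph0 K π ∧ InducedData χ π

/-- **GALSEED (the Galois side of the seed).**  `E = fieldE ρ` is a totally complex number field;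
`L = E'` is the fixed field of `ρ⁻¹⟨g₀⟩` (`[L : E] = 2`); `χ = θ ∘ Art_{M/L}`, `θ(g₀) = i`
(tower CFT: Artin reciprocity for the cyclic quartic extension `M / L`, `M` the fixed field of
`ker ρ`); `χ^σ = χ⁻¹ ≠ χ` with a witness from Chebotarev over `ℚ` (on main);
`tr Ψ(h) = θ(h) + θ(h)⁻¹` on `⟨g₀⟩`, `= 0` on `Q8 ∖ ⟨g₀⟩`, `det = 1`. -/
def GalSeedC : Prop :=
  ∀ (ρ : Γℚ →* GL (Fin 2) (ZMod 3)) (Ψ : GL (Fin 2) (ZMod 3) →* GL (Fin 2) (ℤ√(-2))),
    LTB.Hyp ρ Ψ →
    ∃ (ι : ℤ√(-2) →+* ℂ) (_ : NumberField (fieldE ρ))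
      (L : Type) (_ : Field L) (_ : NumberField L) (_ : Algebra (fieldE ρ) L)
      (χ : (A0.Adl L)ˣ →* ℂˣ),
      Module.finrank (fieldE ρ) L = 2 ∧ (∀ u : InfinitePlace (fieldE ρ), u.IsComplex) ∧
      IsIdeleClassChar χ ∧ IsFiniteOrder χ ∧ NotGaloisInvariant (fieldE ρ) χ ∧
      ∀ π : HeckeEigensystem (fieldE ρ) ℂ, InducedData χ π → SeedData (fieldE ρ) ρ Ψ ι π

end Level1

end Fermat.Agent.LT.A2

end
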