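import Fermat.Agent.LT.A2.Spec

/-!
# Row LT, tower A2, block THETA -- level 2: frozen interfaces (helper950)

    ThetaC  ⟸  KernelC + AdeleQuotC + CuspOfWhitC + MeanOfWhitC + NeZeroOfWhitC
                                                      (`theta_of_leaves`, `ThetaTop.lean`)

The cut is along the FOURIER--WHITTAKER EXPANSION  `φ(g) = ∑_{α ∈ K^×} W(diag(α,1) g)`:

* `KernelC` (the construction): the theta lift `φ` of `χ` with its Whittaker function `W`
  (an orbital integral of the Weil representation over the norm-one torus); everything which is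
  LOCAL is a property of `W` (Hecke eigen-property at `v ∤ 𝔫`, mean-value property at the complex
  places, non-vanishing), everything which is GLOBAL and does not follow from the expansion is a
  property of `φ` (continuity, boundedness, automorphy, level).
* the `…OfWhitC` leaves transfer the local properties from `W` to `φ` through the expansion
  (abstract harmonic analysis on the compact group `𝔸_K / K`; no Weil representation).
* `AdeleQuotC` is an INTERFACE with towers T1 / T3 (Tate's thesis): `K` is a lattice of finite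
  covolume in `𝔸_K`.

Definitions only (no `sorry`, nothing assumed).
-/

set_option autoImplicit false

open IsDedekindDomain NumberField AutomorphicForm
open scoped MatrixGroups

noncomputable section

namespace Fermat.Agent.LT.A2

open Fermat.Agent.LT.H130 Fermat.Agent.LT.H556

section Whittaker

variable {K : Type} [Field K] [NumberField K]

/-- `n` is the upper unipotent parametrisation `x ↦ [[1, x], [0, 1]]` of `GL₂(𝔸_K)`
(relational, as in `A0.IsCuspidalFn`). -/
def IsUpperUnip (n : A0.Adl K → A0.G K) : Prop :=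
  ∀ x : A0.Adl K, (n x : Matrix (Fin 2) (Fin 2) (A0.Adl K)) = !![1, x; 0, 1]

/-- `d` is the rational diagonal parametrisation `α ↦ diag(α, 1)`, `α ∈ K^×`. -/
def IsRatDiag (d : Kˣ → A0.G K) : Prop :=
  ∀ α : Kˣ, (d α : Matrix (Fin 2) (Fin 2) (A0.Adl K))
    = !![algebraMap K (A0.Adl K) (α : K), 0; 0, 1]

/-- `ψ` is a nontrivial continuous unitary character of `𝔸_K`, trivial on `K`. -/
structure IsAdeleChar (ψ : A0.Adl K → ℂ) : Prop where
  cont : Continuous ψ
  map_add : ∀ x y : A0.Adl K, ψ (x + y) = ψ x * ψ y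
  norm_one : ∀ x : A0.Adl K, ‖ψ x‖ = 1
  triv : ∀ k : K, ψ (algebraMap K (A0.Adl K) k) = 1
  nontriv : ∃ x : A0.Adl K, ψ x ≠ 1

/-- **The Fourier--Whittaker expansion** of `φ` with Whittaker function `W` (character `ψ`):
`W(n(x) g) = ψ(x) W(g)`, the series `∑_{α ∈ K^×} W(diag(α,1) g)` is normally convergent on the
compact subsets of `GL₂(𝔸_K)`, and its sum is `φ(g)`. -/
structure IsWhitExp (ψ : A0.Adl K → ℂ) (φ W : A0.G K → ℂ) : Prop where
  equiv : ∀ n : A0.Adl K → A0.G K, IsUpperUnip n →
    ∀ (x : A0.Adl K) (g : A0.G K), W (n x * g) = ψ x * W g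
  loc_summable : ∀ C : Set (A0.G K), IsCompact C → ∃ b : Kˣ → ℝ, Summable b ∧
    ∀ d : Kˣ → A0.G K, IsRatDiag d → ∀ (α : Kˣ) (g : A0.G K), g ∈ C → ‖W (d α * g)‖ ≤ b α
  expansion : ∀ d : Kˣ → A0.G K, IsRatDiag d → ∀ g : A0.G K, φ g = ∑' α : Kˣ, W (d α * g)

/-- **The station after the construction**: an automorphic function `φ` of level `π.level`,
right invariant under `ℝ_{>0}` and the maximal compact subgroups at the infinite places,
continuous and bounded, with a Fourier--Whittaker expansion whose Whittaker function `W` is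
continuous, not identically zero, has the mean-value property of parameter `0` at the complex
places and is a Hecke eigenfunction with the eigenvalues of `π` at the places `v ∤ π.level`. -/
structure PreCusp (π : HeckeEigensystem K ℂ) (ψ : A0.Adl K → ℂ) (φ W : A0.G K → ℂ) : Prop where
  char : IsAdeleChar ψ
  cont : Continuous φ
  bdd : ∃ C : ℝ, ∀ g : A0.G K, ‖φ g‖ ≤ C
  left_inv : ∀ (γ : GL (Fin 2) K) (g : A0.G K),
    φ (Matrix.GeneralLinearGroup.map (algebraMap K (A0.Adl K)) γ * g) = φ g
  level_inv : ∀ u : A0.G K, A0.InLevelGroup π.level u → ∀ g : A0.G K, φ (g * u) = φ g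
  arch_scalar : ∀ (w : InfinitePlace K) (z : A0.G K), A0.IsArchPosScalar w z →
    ∀ g : A0.G K, φ (g * z) = φ g
  arch_compact : ∀ (w : InfinitePlace K) (k : A0.G K), A0.IsArchCompact w k →
    ∀ g : A0.G K, φ (g * k) = φ g
  whit : IsWhitExp ψ φ W
  W_cont : Continuous W
  W_ne : ∃ g : A0.G K, W g ≠ 0
  W_mean : ∀ w : InfinitePlace K, w.IsComplex → A0.MeanValueComplex W w
  W_hecke : ∀ v : HeightOneSpectrum (𝓞 K), ¬ v.asIdeal ∣ π.level →
    A0.IsHeckeEigenAt W v (π.a v) (π.b v)

end Whittaker

/-! ## The leaves of level 2 -/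

section Leaves

/-- **KERNEL (the theta lift and its Whittaker function).**  For `K`, `L`, `χ` as in `ThetaC`
there are an eigensystem `π` with the induced data and `ψ`, `φ`, `W` as in `PreCusp`.
`φ(g) = ∫_{T¹(K)\T¹(𝔸)} Θ_Φ(g, h h_g) χ(h h_g) dh` on `GL₂(K) GL₂(𝔸)⁺`, `0` elsewhere;
`W(g) = ∫_{T¹(𝔸)} (r(g, h h_g) Φ)(1) χ(h h_g) dh`.  Weil 1964 (§§ 13--16, 39--41),
Shalika--Tanaka 1969 §2, Jacquet--Langlands §1, §4 (Thm 4.6), §12 (Prop. 12.1), Bump §4.8.
Cut further in `Kernel.lean`. -/
def KernelC : Prop :=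
  ∀ (K L : Type) [Field K] [NumberField K] [Field L] [NumberField L] [Algebra K L],
    Module.finrank K L = 2 → (∀ u : InfinitePlace K, u.IsComplex) →
    ∀ χ : (A0.Adl L)ˣ →* ℂˣ, IsIdeleClassChar χ → IsFiniteOrder χ → NotGaloisInvariant K χ →
      ∃ (π : HeckeEigensystem K ℂ) (ψ : A0.Adl K → ℂ) (φ W : A0.G K → ℂ),
        PreCusp π ψ φ W ∧ InducedData χ π

/-- **ADELE-QUOT (interface with towers T1 / T3).**  `K` is a lattice of finite covolume in
`𝔸_K`: every fundamental domain has finite Haar measure, and there is one (Borel σ-algebra).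
Tate's thesis Thm 4.1.3; Cassels--Fröhlich II §14; Weil, *Basic number theory* IV §2 Thm 2. -/
def AdeleQuotC : Prop :=
  ∀ (K : Type) [Field K] [NumberField K],
    letI : MeasurableSpace (A0.Adl K) := borel (A0.Adl K)
    (∀ μ : MeasureTheory.Measure (A0.Adl K), μ.IsAddHaarMeasure →
      ∀ D : Set (A0.Adl K),
        MeasureTheory.IsAddFundamentalDomain
          ((algebraMap K (A0.Adl K)).toAddMonoidHom.range) D μ → μ D < ⊤) ∧
    ∃ (μ : MeasureTheory.Measure (A0.Adl K)) (D : Set (A0.Adl K)), μ.IsAddHaarMeasure ∧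
      MeasureTheory.IsAddFundamentalDomain
        ((algebraMap K (A0.Adl K)).toAddMonoidHom.range) D μ

/-- **CUSP-OF-WHIT.**  A function with a Fourier--Whittaker expansion (no constant term) is
cuspidal: `∫_D φ(n(x) g) dx = ∑_α W(diag(α,1) g) ∫_D ψ(α x) dx = 0`, the characters `x ↦ ψ(α x)`,
`α ≠ 0`, of `𝔸_K / K` being nontrivial.  (If `x ↦ φ(n(x) g)` is not integrable on `D` the
integral is `0` by convention.) -/
def CuspOfWhitC : Prop :=
  AdeleQuotC →
  ∀ (K : Type) [Field K] [NumberField K] (π : HeckeEigensystem K ℂ) (ψ : A0.Adl K → ℂ)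
    (φ W : A0.G K → ℂ), PreCusp π ψ φ W → A0.IsCuspidalFn φ

/-- **MEAN-OF-WHIT.**  The mean-value property at a complex place passes from `W` to the sum of
the expansion (the sphere is compact: normal convergence, dominated convergence). -/
def MeanOfWhitC : Prop :=
  ∀ (K : Type) [Field K] [NumberField K] (π : HeckeEigensystem K ℂ) (ψ : A0.Adl K → ℂ)
    (φ W : A0.G K → ℂ), PreCusp π ψ φ W →
    ∀ w : InfinitePlace K, w.IsComplex → A0.MeanValueComplex φ w

/-- **NEZERO-OF-WHIT.**  `W(g) = vol(D)⁻¹ ∫_D φ(n(x) g) ψ(-x) dx` (orthogonality of the characters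
of `𝔸_K / K`), hence `φ ≠ 0` because `W ≠ 0`. -/
def NeZeroOfWhitC : Prop :=
  AdeleQuotC →
  ∀ (K : Type) [Field K] [NumberField K] (π : HeckeEigensystem K ℂ) (ψ : A0.Adl K → ℂ)
    (φ W : A0.G K → ℂ), PreCusp π ψ φ W → ∃ g : A0.G K, φ g ≠ 0

end Leaves

end Fermat.Agent.LT.A2

end
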