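import Fermat.Agent.LT.A2.Theta

/-!
# Row LT, tower A2, block THETA -- level 3: the cut of `KernelC` (helper950)

    KernelC  ⟸  TorusCharC + KernelTC                                  (`kernel_of_leaves`)
    KernelTC ⟸  WeilLocalC + Poisson2C + HasseNormC + ThetaInvC + LiftExC + WhitExC + ExpC + InvC
                                                                        (`kernelT_of_leaves`)

Everything is written in COORDINATES: `L = K ⊕ K ω`, `ω² - t ω + n = 0`, so that the quadratic space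
`(L, N_{L/K})` becomes `(K², Q)`, `Q(x, y) = x² + t x y + n y²`, its adelic points are `𝔸_K × 𝔸_K`,
and the torus `T = Res_{L/K} 𝔾_m` is the group of the matrices `a + b M_ω = [[a, -n b], [b, a + t b]]`
inside `GL₂`.  No adele ring of `L` occurs after `TorusCharC`.

## The Weil representation, in function form

A WEIL FAMILY is a function `F g m ξ` (`= (r(g, m) Φ₀)(ξ)`), defined on the ADMISSIBLE pairs
`(g, m)`, `g ∈ GL₂(𝔸_K)`, `m ∈ T(𝔸_K)`, `det g = det m`, and `ξ ∈ 𝔸_K²`, with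
(`r(g, m) = L(m) r(d(det g)⁻¹ g)`, `d(a) = diag(1, a)`, `L(m) Φ(ξ) = |det m|^{-1/2} Φ(m⁻¹ ξ)`):

    F (n(x) g) m ξ = ψ(x Q(ξ)) F g m ξ                                   (unip)
    F (w g) m ξ    = ∫ F g m y ψ(B(ξ, y)) dy                             (weyl; global Weil index 1)
    F (t(a) g) m ξ = F g m (a ξ),        a ∈ K^×                          (diagK; η(a) |a| = 1)
    F (d(det μ) g) (μ m) ξ = F g m (μ⁻¹ ξ),   μ ∈ T(K)                    (torK; |det μ| = 1)
    F g (m' m) ξ   = F g m (m'⁻¹ ξ),     m' ∈ T¹(𝔸)                       (tor1)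

Weil 1964 §§ 13--16; Jacquet--Langlands §1 (Prop. 1.3, 1.5); Shalika--Tanaka §1; Bump §4.8.

Definitions only (no `sorry`, nothing assumed).
-/

set_option autoImplicit false

open IsDedekindDomain NumberField AutomorphicForm MeasureTheory
open scoped MatrixGroups

noncomputable section

namespace Fermat.Agent.LT.A2

open Fermat.Agent.LT.H130 Fermat.Agent.LT.H556

/-! ## Coordinates -/

section Coord

variable {K : Type} [Field K] [NumberField K]

/-- `Q(x, y) = x² + t x y + n y²` on `𝔸_K²`. -/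
def qf (t n : K) (ξ : A0.Adl K × A0.Adl K) : A0.Adl K :=
  ξ.1 ^ 2 + algebraMap K (A0.Adl K) t * ξ.1 * ξ.2 + algebraMap K (A0.Adl K) n * ξ.2 ^ 2

/-- `B(ξ, y) = Q(ξ + y) - Q(ξ) - Q(y)`. -/
def bf (t n : K) (ξ y : A0.Adl K × A0.Adl K) : A0.Adl K :=
  qf t n (ξ + y) - qf t n ξ - qf t n y

/-- The matrix of the multiplication by `a + b ω` in the basis `1, ω`. -/
def torMat {R : Type*} [CommRing R] (t n a b : R) : Matrix (Fin 2) (Fin 2) R :=
  !![a, -(n * b); b, a + t * b]

/-- `m ∈ T(𝔸_K)`. -/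
def InTorus (t n : K) (m : A0.G K) : Prop :=
  ∃ a b : A0.Adl K, (m : Matrix (Fin 2) (Fin 2) (A0.Adl K))
    = torMat (algebraMap K (A0.Adl K) t) (algebraMap K (A0.Adl K) n) a b

/-- `m ∈ T(K)`. -/
def InTorusRat (t n : K) (m : A0.G K) : Prop :=
  ∃ a b : K, (m : Matrix (Fin 2) (Fin 2) (A0.Adl K))
    = torMat (algebraMap K (A0.Adl K) t) (algebraMap K (A0.Adl K) n)
        (algebraMap K (A0.Adl K) a) (algebraMap K (A0.Adl K) b)

/-- `m ∈ T¹(𝔸_K)`: the norm-one torus. -/
def InTorus1 (t n : K) (m : A0.G K) : Prop :=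
  InTorus t n m ∧ Matrix.GeneralLinearGroup.det m = 1

/-- The pair `(g, m)` is ADMISSIBLE: `m ∈ T(𝔸_K)` and `det g = det m`. -/
def Adm (t n : K) (g m : A0.G K) : Prop :=
  InTorus t n m ∧ Matrix.GeneralLinearGroup.det g = Matrix.GeneralLinearGroup.det m

/-- `g ∈ GL₂(𝔸_K)⁺`: `det g` is a norm from the torus. -/
def InGPlus (t n : K) (g : A0.G K) : Prop := ∃ m : A0.G K, Adm t n g m

/-- The natural action of `GL₂(𝔸_K)` on `𝔸_K²` (column vectors). -/
def actV (m : A0.G K) (ξ : A0.Adl K × A0.Adl K) : A0.Adl K × A0.Adl K :=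
  ((m : Matrix (Fin 2) (Fin 2) (A0.Adl K)) 0 0 * ξ.1
      + (m : Matrix (Fin 2) (Fin 2) (A0.Adl K)) 0 1 * ξ.2,
    (m : Matrix (Fin 2) (Fin 2) (A0.Adl K)) 1 0 * ξ.1
      + (m : Matrix (Fin 2) (Fin 2) (A0.Adl K)) 1 1 * ξ.2)

/-- The rational vector `(x, y) ∈ K²` in `𝔸_K²`. -/
def ratV (ξ : K × K) : A0.Adl K × A0.Adl K :=
  (algebraMap K (A0.Adl K) ξ.1, algebraMap K (A0.Adl K) ξ.2)

/-- `g` is the image of `γ ∈ GL₂(K)`. -/
def ratG (γ : GL (Fin 2) K) : A0.G K :=
  Matrix.GeneralLinearGroup.map (algebraMap K (A0.Adl K)) γ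

/-- `w` is the Weyl element `[[0, 1], [-1, 0]]`. -/
def IsWeyl (w : A0.G K) : Prop :=
  (w : Matrix (Fin 2) (Fin 2) (A0.Adl K)) = !![0, 1; -1, 0]

/-- `d` is `diag(1, a)`, `a ∈ K^×`. -/
def IsDiagOne (d : A0.G K) (a : K) : Prop :=
  (d : Matrix (Fin 2) (Fin 2) (A0.Adl K)) = !![1, 0; 0, algebraMap K (A0.Adl K) a]

/-- `s` is `diag(a, a⁻¹)`, `a ∈ K^×`. -/
def IsDiagSL (s : A0.G K) (a : K) : Prop :=
  (s : Matrix (Fin 2) (Fin 2) (A0.Adl K))
    = !![algebraMap K (A0.Adl K) a, 0; 0, algebraMap K (A0.Adl K) a⁻¹]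

end Coord

/-! ## The torus character -/

section TorusChar

variable {K : Type} [Field K] [NumberField K]

/-- `χT` is an automorphic character of finite order of the torus `T(𝔸_K) ⊂ GL₂(𝔸_K)`
(only its values on `T(𝔸_K)` matter), NOT trivial on the norm-one torus. -/
structure IsTorusChar (t n : K) (χT : A0.G K → ℂ) : Prop where
  irred : ∀ x : K, x ^ 2 - t * x + n ≠ 0
  mul : ∀ m m' : A0.G K, InTorus t n m → InTorus t n m' → χT (m * m') = χT m * χT m'
  one : χT 1 = 1
  cont : ContinuousOn χT {m | InTorus t n m}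
  rat : ∀ m : A0.G K, InTorusRat t n m → χT m = 1
  fin_order : ∃ k : ℕ, 0 < k ∧ ∀ m : A0.G K, InTorus t n m → χT m ^ k = 1
  nontriv : ∃ m : A0.G K, InTorus1 t n m ∧ χT m ≠ 1

/-- The induced data in torus coordinates at the place `v`: if `m₁`, `m₂` are integral elements of
`T(K_v)` with determinant a uniformiser, inequivalent modulo `T(𝒪_v)`, then
`a = χT(m₁) + χT(m₂)`, `b = χT(m₁) χT(m₂)`; if there is no integral element of `T(K_v)` with
determinant a uniformiser (`v` inert), then `a = 0` and `b = - χT(ϖ_v)`. -/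
def InducedAtT (t n : K) (χT : A0.G K → ℂ) (v : HeightOneSpectrum (𝓞 K)) (a b : ℂ) : Prop :=
  (∀ m₁ m₂ : A0.G K, InTorus t n m₁ → InTorus t n m₂ →
      A0.IsLocalAtFin v m₁ → A0.IsLocalAtFin v m₂ → A0.IsIntegralAt v m₁ → A0.IsIntegralAt v m₂ →
      Valued.v (A0.finComp v m₁).det = WithZero.exp (-1 : ℤ) →
      Valued.v (A0.finComp v m₂).det = WithZero.exp (-1 : ℤ) →
      ¬ A0.IsIntegralAt v (m₁⁻¹ * m₂) →
      a = χT m₁ + χT m₂ ∧ b = χT m₁ * χT m₂) ∧
    ((∀ m : A0.G K, InTorus t n m → A0.IsLocalAtFin v m → A0.IsIntegralAt v m →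
        Valued.v (A0.finComp v m).det ≠ WithZero.exp (-1 : ℤ)) →
      ∀ z : A0.G K, A0.IsScalarUniformizerAt v z → a = 0 ∧ b = -χT z)

/-- The eigensystem `π` has the induced data of `χT` at the places not dividing its level. -/
def InducedDataT (t n : K) (χT : A0.G K → ℂ) (π : HeckeEigensystem K ℂ) : Prop :=
  ∀ v : HeightOneSpectrum (𝓞 K), ¬ v.asIdeal ∣ π.level → InducedAtT t n χT v (π.a v) (π.b v)

end TorusChar

/-! ## Weil families, theta kernel, lift, Whittaker function -/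

section Weil

variable (K : Type) [Field K] [NumberField K]

/-- `μ` is the Haar measure of `𝔸_K` of covolume `1` (Borel σ-algebra): every fundamental domain
of `K` has measure `1`. -/
def IsCovolOne {K : Type} [Field K] [NumberField K]
    (μ : @Measure (A0.Adl K) (borel (A0.Adl K))) : Prop :=
  letI : MeasurableSpace (A0.Adl K) := borel (A0.Adl K)
  μ.IsAddHaarMeasure ∧ ∀ S : Set (A0.Adl K),
    IsAddFundamentalDomain ((algebraMap K (A0.Adl K)).toAddMonoidHom.range) S μ → μ S = 1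

/-- Integrability on `𝔸_K²` for the product measure `μ × μ` (product of the Borel σ-algebras). -/
def Integrable2 {K : Type} [Field K] [NumberField K]
    (μ : @Measure (A0.Adl K) (borel (A0.Adl K))) (f : A0.Adl K × A0.Adl K → ℂ) : Prop :=
  letI : MeasurableSpace (A0.Adl K) := borel (A0.Adl K)
  Integrable f (μ.prod μ)

/-- The integral over `𝔸_K²` for the product measure `μ × μ`. -/
def integral2 {K : Type} [Field K] [NumberField K]
    (μ : @Measure (A0.Adl K) (borel (A0.Adl K))) (f : A0.Adl K × A0.Adl K → ℂ) : ℂ :=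
  letI : MeasurableSpace (A0.Adl K) := borel (A0.Adl K)
  ∫ y, f y ∂(μ.prod μ)

/-- **The data of the theta construction** (coordinates `t`, `n`; torus character `χT`; additive
character `ψ`; Haar measure `μ` of `𝔸_K`; Haar measure `μT` of the norm-one torus `T¹(𝔸_K)`, as a
measure on `GL₂(𝔸_K)` carried by `T¹(𝔸_K)`; fundamental domain `DT` of `T¹(K)` in `T¹(𝔸_K)`;
Weil family `F`; eigensystem `π`). -/
structure KData where
  t : K
  n : K
  χT : A0.G K → ℂ
  ψ : A0.Adl K → ℂ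
  μ : @Measure (A0.Adl K) (borel (A0.Adl K))
  μT : @Measure (A0.G K) (borel (A0.G K))
  DT : Set (A0.G K)
  F : A0.G K → A0.G K → A0.Adl K × A0.Adl K → ℂ
  π : HeckeEigensystem K ℂ

variable {K}

/-- The integral over `𝔸_K²` for the product measure `μ × μ` (Borel σ-algebras). -/
def KData.int2 (D : KData K) (f : A0.Adl K × A0.Adl K → ℂ) : ℂ :=
  integral2 D.μ f

/-- The integral over the subset `S` of `GL₂(𝔸_K)` for the torus measure `μT`. -/
def KData.intT (D : KData K) (S : Set (A0.G K)) (f : A0.G K → ℂ) : ℂ :=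
  letI : MeasurableSpace (A0.G K) := borel (A0.G K)
  ∫ m in S, f m ∂D.μT

/-- **The axioms of a WEIL FAMILY** (see the header). -/
structure KData.IsWeil (D : KData K) : Prop where
  unip : ∀ nU : A0.Adl K → A0.G K, IsUpperUnip nU →
    ∀ (x : A0.Adl K) (g m : A0.G K) (ξ : A0.Adl K × A0.Adl K), Adm D.t D.n g m →
      D.F (nU x * g) m ξ = D.ψ (x * qf D.t D.n ξ) * D.F g m ξ
  weyl : ∀ w : A0.G K, IsWeyl w →
    ∀ (g m : A0.G K) (ξ : A0.Adl K × A0.Adl K), Adm D.t D.n g m →
      D.F (w * g) m ξ = D.int2 fun y => D.F g m y * D.ψ (bf D.t D.n ξ y)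
  diagK : ∀ (s : A0.G K) (a : K), a ≠ 0 → IsDiagSL s a →
    ∀ (g m : A0.G K) (ξ : A0.Adl K × A0.Adl K), Adm D.t D.n g m →
      D.F (s * g) m ξ = D.F g m (algebraMap K (A0.Adl K) a • ξ)
  torK : ∀ (μ' d : A0.G K) (a : K), InTorusRat D.t D.n μ' →
    ((Matrix.GeneralLinearGroup.det μ' : (A0.Adl K)ˣ) : A0.Adl K) = algebraMap K (A0.Adl K) a →
    IsDiagOne d a →
    ∀ (g m : A0.G K) (ξ : A0.Adl K × A0.Adl K), Adm D.t D.n g m →
      D.F (d * g) (μ' * m) ξ = D.F g m (actV μ'⁻¹ ξ)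
  tor1 : ∀ m' : A0.G K, InTorus1 D.t D.n m' →
    ∀ (g m : A0.G K) (ξ : A0.Adl K × A0.Adl K), Adm D.t D.n g m →
      D.F g (m' * m) ξ = D.F g m (actV m'⁻¹ ξ)

/-- **Regularity** of the family: the hypotheses of the Poisson summation formula for every
`F g m`, and continuity and normal convergence on the compact sets of admissible pairs. -/
structure KData.IsRegular (D : KData K) : Prop where
  cont : ∀ g m : A0.G K, Adm D.t D.n g m → Continuous (D.F g m)
  integrable : ∀ g m : A0.G K, Adm D.t D.n g m → Integrable2 D.μ (D.F g m)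
  shift_summable : ∀ g m : A0.G K, Adm D.t D.n g m →
    ∀ C : Set (A0.Adl K × A0.Adl K), IsCompact C → ∃ b : K × K → ℝ, Summable b ∧
      ∀ (ξ : K × K) (x : A0.Adl K × A0.Adl K), x ∈ C → ‖D.F g m (x + ratV ξ)‖ ≤ b ξ
  cont_pair : ∀ ξ : A0.Adl K × A0.Adl K,
    ContinuousOn (fun p : A0.G K × A0.G K => D.F p.1 p.2 ξ) {p | Adm D.t D.n p.1 p.2}
  loc_summable : ∀ C : Set (A0.G K × A0.G K), IsCompact C → ∃ b : K × K → ℝ, Summable b ∧
    ∀ (ξ : K × K) (p : A0.G K × A0.G K), p ∈ C → Adm D.t D.n p.1 p.2 →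
      ‖D.F p.1 p.2 (ratV ξ)‖ ≤ b ξ

/-- **The measures**: `μ` is the Haar measure of `𝔸_K` of covolume `1`; `μT` is a Haar measure of
`T¹(𝔸_K)` (carried by `T¹`, invariant under translation by `T¹`, finite on compact sets, positive
on the open sets which meet `T¹`), `DT ⊆ T¹(𝔸_K)` is a relatively compact Borel fundamental
domain of `T¹(K)`. -/
structure KData.IsMeasured (D : KData K) : Prop where
  covol : IsCovolOne D.μ
  carried : D.μT {m | ¬ InTorus1 D.t D.n m} = 0
  inv : ∀ m' : A0.G K, InTorus1 D.t D.n m' → ∀ S : Set (A0.G K),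
    D.μT ((fun m => m' * m) '' S) = D.μT S
  compact_lt : ∀ C : Set (A0.G K), IsCompact C → D.μT C < ⊤
  open_pos : ∀ U : Set (A0.G K), IsOpen U → (∃ m, m ∈ U ∧ InTorus1 D.t D.n m) → 0 < D.μT U
  dom_sub : ∀ m ∈ D.DT, InTorus1 D.t D.n m
  dom_meas : @MeasurableSet (A0.G K) (borel (A0.G K)) D.DT
  dom_compact : ∃ C : Set (A0.G K), IsCompact C ∧ D.DT ⊆ C
  dom_fund : ∀ m : A0.G K, InTorus1 D.t D.n m →
    ∃! y : A0.G K, InTorusRat D.t D.n y ∧ InTorus1 D.t D.n y ∧ y * m ∈ D.DT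

/-- **Right invariance** of the family under the level group, the positive real scalars and the
maximal compact subgroups at the infinite places: for such `u` there is `κ ∈ T(𝔸_K)` with
`det κ = det u`, `χT κ = 1`, `F (g u) (m κ) = F g m`. -/
structure KData.IsRightInv (D : KData K) : Prop where
  level : ∀ u : A0.G K, A0.InLevelGroup D.π.level u →
    ∃ κ : A0.G K, Adm D.t D.n u κ ∧ D.χT κ = 1 ∧
      ∀ (g m : A0.G K) (ξ : A0.Adl K × A0.Adl K), Adm D.t D.n g m →
        D.F (g * u) (m * κ) ξ = D.F g m ξ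
  arch_scalar : ∀ (w : InfinitePlace K) (z : A0.G K), A0.IsArchPosScalar w z →
    ∃ κ : A0.G K, Adm D.t D.n z κ ∧ D.χT κ = 1 ∧
      ∀ (g m : A0.G K) (ξ : A0.Adl K × A0.Adl K), Adm D.t D.n g m →
        D.F (g * z) (m * κ) ξ = D.F g m ξ
  arch_compact : ∀ (w : InfinitePlace K) (k : A0.G K), A0.IsArchCompact w k →
    ∃ κ : A0.G K, Adm D.t D.n k κ ∧ D.χT κ = 1 ∧
      ∀ (g m : A0.G K) (ξ : A0.Adl K × A0.Adl K), Adm D.t D.n g m →
        D.F (g * k) (m * κ) ξ = D.F g m ξ

/-- **The data are GOOD.** -/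
structure KData.Good (D : KData K) : Prop where
  torus : IsTorusChar D.t D.n D.χT
  char : IsAdeleChar D.ψ
  measured : D.IsMeasured
  weil : D.IsWeil
  regular : D.IsRegular
  right_inv : D.IsRightInv

/-- **The theta kernel** `Θ(g, m) = ∑_{ξ ∈ K²} F g m ξ`. -/
def KData.theta (D : KData K) (g m : A0.G K) : ℂ := ∑' ξ : K × K, D.F g m (ratV ξ)

/-- **Invariance of the theta kernel** under the rational admissible pairs. -/
def KData.ThetaInv (D : KData K) : Prop :=
  ∀ (γ : GL (Fin 2) K) (y g m : A0.G K), InTorusRat D.t D.n y →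
    Matrix.GeneralLinearGroup.det (ratG γ) = Matrix.GeneralLinearGroup.det y →
    Adm D.t D.n g m → D.theta (ratG γ * g) (y * m) = D.theta g m

/-- `φ` is **the theta lift** of `χT`: `φ(g) = ∫_{DT} Θ(g, m m_g) χT(m m_g) dm` for every `m_g`
with `(g, m_g)` admissible; `φ` is left invariant under `GL₂(K)`; `φ = 0` outside
`GL₂(K) GL₂(𝔸_K)⁺`. -/
structure KData.IsLift (D : KData K) (φ : A0.G K → ℂ) : Prop where
  formula : ∀ g mg : A0.G K, Adm D.t D.n g mg →
    φ g = D.intT D.DT fun m => D.theta g (m * mg) * D.χT (m * mg)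
  left_inv : ∀ (γ : GL (Fin 2) K) (g : A0.G K), φ (ratG γ * g) = φ g
  off : ∀ g : A0.G K, (∀ γ : GL (Fin 2) K, ¬ InGPlus D.t D.n (ratG γ * g)) → φ g = 0

/-- `W` is **the Whittaker function** of the lift: the orbital integral
`W(g) = ∫_{T¹(𝔸)} F g (m m_g) (1, 0) χT(m m_g) dm`; `W = 0` outside `GL₂(𝔸_K)⁺`. -/
structure KData.IsWhit (D : KData K) (W : A0.G K → ℂ) : Prop where
  formula : ∀ g mg : A0.G K, Adm D.t D.n g mg →
    W g = D.intT {m | InTorus1 D.t D.n m} fun m => D.F g (m * mg) (1, 0) * D.χT (m * mg)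
  off : ∀ g : A0.G K, ¬ InGPlus D.t D.n g → W g = 0

end Weil

/-! ## The leaves of level 3 -/

section Leaves

/-- **TORUS-CHAR (dictionary).**  For `K`, `L`, `χ` as in `ThetaC`: `L = K(ω)`,
`ω² - t ω + n = 0`, and the transport `χT` of `χ` to the torus `T(𝔸_K) = (L ⊗ 𝔸_K)^× ≅ 𝔸_L^×` in
the coordinates `1, ω` is a torus character, not trivial on `T¹` (Hilbert 90: `χ|_{T¹} = 1` iff
`χ = χ^σ`), whose induced data are those of `χ` (at almost all `v`: `𝒪_v[ω] = 𝒪_{L,v}`, the two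
classes of integral elements of norm a uniformiser are the two places over `v`).  The level of
`π` is enlarged by the finitely many places where the dictionary is not available.
Needs the base change `𝔸_K ⊗_K L ≅ 𝔸_L` (Cassels--Fröhlich II §14, Weil BNT IV §1). -/
def TorusCharC : Prop :=
  ∀ (K L : Type) [Field K] [NumberField K] [Field L] [NumberField L] [Algebra K L],
    Module.finrank K L = 2 → (∀ u : InfinitePlace K, u.IsComplex) →
    ∀ χ : (A0.Adl L)ˣ →* ℂˣ, IsIdeleClassChar χ → IsFiniteOrder χ → NotGaloisInvariant K χ →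
      ∃ (t n : K) (χT : A0.G K → ℂ) (𝔡 : Ideal (𝓞 K)), 𝔡 ≠ ⊥ ∧ IsTorusChar t n χT ∧
        ∀ π : HeckeEigensystem K ℂ, InducedDataT t n χT π → π.level ≤ 𝔡 → InducedData χ π

/-- **WEIL-LOCAL (existence of the Weil family, local and analytic properties).**  For a torus
character `χT` over a totally complex field there are GOOD data with torus character `χT`, whose
eigensystem has the induced data and a level contained in any prescribed nonzero ideal, such that
every theta lift is continuous and bounded and every Whittaker function is continuous, not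
identically zero, normally summable over `diag(α, 1)`, `α ∈ K^×`, on the compact sets, has the
mean-value property of parameter `0` at the complex places and the Hecke eigenvalues of `π` at
`v ∤ π.level`.
`F g m = ⊗_v r_v(g_v, m_v) Φ_v`, `Φ_v = 1_{𝒪_v²}` at almost all `v`, `Φ_u` = the Gaussian
`exp(-2π (|ξ₁|² + |ξ₂|²))` in the split coordinates at the complex places.
Weil 1964 §§ 13--16, 39--41; JL §1, Thm 4.6, Lemma 4.? (unramified vector), §5 (complex places);
Shalika--Tanaka §1--2; Bump §4.8; boundedness: reduction theory of tower T1. -/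
def WeilLocalC : Prop :=
  ∀ (K : Type) [Field K] [NumberField K] (t n : K) (χT : A0.G K → ℂ),
    IsTorusChar t n χT → (∀ u : InfinitePlace K, u.IsComplex) →
    ∀ 𝔡 : Ideal (𝓞 K), 𝔡 ≠ ⊥ →
    ∃ D : KData K, D.t = t ∧ D.n = n ∧ D.χT = χT ∧ D.π.level ≤ 𝔡 ∧ D.Good ∧
      InducedDataT t n χT D.π ∧
      (∀ φ : A0.G K → ℂ, D.IsLift φ → Continuous φ ∧ ∃ C : ℝ, ∀ g : A0.G K, ‖φ g‖ ≤ C) ∧
      ∀ W : A0.G K → ℂ, D.IsWhit W →
        Continuous W ∧ (∃ g : A0.G K, W g ≠ 0) ∧
        (∀ C : Set (A0.G K), IsCompact C → ∃ b : Kˣ → ℝ, Summable b ∧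
          ∀ d : Kˣ → A0.G K, IsRatDiag d → ∀ (α : Kˣ) (g : A0.G K), g ∈ C →
            ‖W (d α * g)‖ ≤ b α) ∧
        (∀ w : InfinitePlace K, w.IsComplex → A0.MeanValueComplex W w) ∧
        ∀ v : HeightOneSpectrum (𝓞 K), ¬ v.asIdeal ∣ D.π.level →
          A0.IsHeckeEigenAt W v (D.π.a v) (D.π.b v)

/-- **POISSON-2 (interface with tower T3).**  Poisson summation on `𝔸_K²` for the pairing
`ψ ∘ B`, `B` the bilinear form of a nondegenerate `K`-rational binary quadratic form, and the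
product of the Haar measures of covolume `1`:  `∑_{ξ ∈ K²} Φ(ξ) = ∑_{ξ ∈ K²} Φ̂(ξ)`,
`Φ̂(ξ) = ∫ Φ(y) ψ(B(ξ, y)) dy`, for `Φ` continuous, integrable, with `∑ Φ(x + ξ)` normally
convergent on compact sets and `∑ |Φ̂(ξ)| < ∞`.  Tate's thesis Thm 4.2.1 (twice) and the change
of variables `ξ ↦ S ξ`, `S ∈ GL₂(K)`, `|det S|_𝔸 = 1`. -/
def Poisson2C : Prop :=
  ∀ (K : Type) [Field K] [NumberField K] (t n : K), t ^ 2 - 4 * n ≠ 0 →
    ∀ (ψ : A0.Adl K → ℂ), IsAdeleChar ψ →
    ∀ (μ : @Measure (A0.Adl K) (borel (A0.Adl K))), IsCovolOne μ →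
    ∀ Φ : A0.Adl K × A0.Adl K → ℂ, Continuous Φ → Integrable2 μ Φ →
      (∀ C : Set (A0.Adl K × A0.Adl K), IsCompact C → ∃ b : K × K → ℝ, Summable b ∧
        ∀ (ξ : K × K) (x : A0.Adl K × A0.Adl K), x ∈ C → ‖Φ (x + ratV ξ)‖ ≤ b ξ) →
      (Summable fun ξ : K × K => ‖integral2 μ fun y => Φ y * ψ (bf t n (ratV ξ) y)‖) →
      ∑' ξ : K × K, Φ (ratV ξ)
        = ∑' ξ : K × K, integral2 μ fun y => Φ y * ψ (bf t n (ratV ξ) y)

/-- **HASSE-NORM (interface with tower CFT).**  Hasse's norm theorem for the quadratic extension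
`K[X]/(X² - tX + n)`, in coordinates: an element of `K^×` which is the determinant of an element
of `T(𝔸_K)` is the determinant of an element of `T(K)`.  Hasse 1931; Cassels--Fröhlich VII §9.6;
Lang ANT IX §3 (quadratic case: Hasse--Minkowski for ternary forms). -/
def HasseNormC : Prop :=
  ∀ (K : Type) [Field K] [NumberField K] (t n : K), (∀ x : K, x ^ 2 - t * x + n ≠ 0) →
    ∀ (a : K) (m : A0.G K), InTorus t n m →
      ((Matrix.GeneralLinearGroup.det m : (A0.Adl K)ˣ) : A0.Adl K) = algebraMap K (A0.Adl K) a →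
      ∃ y : A0.G K, InTorusRat t n y ∧
        ((Matrix.GeneralLinearGroup.det y : (A0.Adl K)ˣ) : A0.Adl K) = algebraMap K (A0.Adl K) a

/-- **THETA-INV.**  The theta kernel of good data is invariant under the rational admissible
pairs: `SL₂(K)` is generated by `n(b)` and `w` (`unip`: `ψ(b Q(ξ)) = 1`; `weyl`: Poisson), and the
pairs `(d(det y), y)`, `y ∈ T(K)`, permute `K²` (`torK`). -/
def ThetaInvC : Prop :=
  Poisson2C → ∀ (K : Type) [Field K] [NumberField K] (D : KData K), D.Good → D.ThetaInv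

/-- **LIFT-EX.**  The theta lift exists: the integral does not depend on `m_g` (`Θ(g, ·) χT` is
`T¹(K)`-invariant, `DT` is a fundamental domain, `μT` is invariant), it is invariant under
`GL₂(K) ∩ GL₂(𝔸_K)⁺ = {det ∈ N(L^×)}` (Hasse), and is extended by `GL₂(K)`-invariance and `0`. -/
def LiftExC : Prop :=
  HasseNormC → ∀ (K : Type) [Field K] [NumberField K] (D : KData K), D.Good → D.ThetaInv →
    ∃ φ : A0.G K → ℂ, D.IsLift φ

/-- **WHIT-EX.**  The orbital integral does not depend on `m_g` (invariance of `μT`). -/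
def WhitExC : Prop :=
  ∀ (K : Type) [Field K] [NumberField K] (D : KData K), D.Good →
    ∃ W : A0.G K → ℂ, D.IsWhit W

/-- **EXP (unfolding).**  `W(n(x) g) = ψ(x) W(g)` and `φ(g) = ∑_{α ∈ K^×} W(diag(α, 1) g)`:
the term `ξ = 0` of the kernel is killed by `∫_{DT} χT = 0` (`χT|_{T¹} ≠ 1`), `Q` is anisotropic,
the `ξ` with `Q(ξ) = α` form one orbit of `T¹(K)` or none, `diag(α, 1) = d(α) t(α)`
(`torK`, `diagK`), and `W(diag(α, 1) g) = 0` if `α` is not a norm (Hasse). -/
def ExpC : Prop :=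
  HasseNormC → ∀ (K : Type) [Field K] [NumberField K] (D : KData K), D.Good → D.ThetaInv →
    ∀ φ W : A0.G K → ℂ, D.IsLift φ → D.IsWhit W →
      (∀ nU : A0.Adl K → A0.G K, IsUpperUnip nU →
        ∀ (x : A0.Adl K) (g : A0.G K), W (nU x * g) = D.ψ x * W g) ∧
      ∀ d : Kˣ → A0.G K, IsRatDiag d → ∀ g : A0.G K, φ g = ∑' α : Kˣ, W (d α * g)

/-- **INV.**  Right invariance of the lift under the level group, the positive real scalars and
the maximal compact subgroups at the infinite places (from `IsRightInv`; `T` is commutative). -/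
def InvC : Prop :=
  ∀ (K : Type) [Field K] [NumberField K] (D : KData K), D.Good →
    ∀ φ : A0.G K → ℂ, D.IsLift φ →
      (∀ u : A0.G K, A0.InLevelGroup D.π.level u → ∀ g : A0.G K, φ (g * u) = φ g) ∧
      (∀ (w : InfinitePlace K) (z : A0.G K), A0.IsArchPosScalar w z →
        ∀ g : A0.G K, φ (g * z) = φ g) ∧
      ∀ (w : InfinitePlace K) (k : A0.G K), A0.IsArchCompact w k →
        ∀ g : A0.G K, φ (g * k) = φ g

/-- **KERNEL-T (the kernel in torus coordinates).** -/
def KernelTC : Prop :=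
  ∀ (K : Type) [Field K] [NumberField K] (t n : K) (χT : A0.G K → ℂ),
    IsTorusChar t n χT → (∀ u : InfinitePlace K, u.IsComplex) →
    ∀ 𝔡 : Ideal (𝓞 K), 𝔡 ≠ ⊥ →
    ∃ (π : HeckeEigensystem K ℂ) (ψ : A0.Adl K → ℂ) (φ W : A0.G K → ℂ),
      PreCusp π ψ φ W ∧ InducedDataT t n χT π ∧ π.level ≤ 𝔡

end Leaves

end Fermat.Agent.LT.A2

end
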