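import Fermat.Agent.LT.A2.Theta

/-!
# Row LT, tower A2, block THETA -- the PROVED top of level 2 (helper950)

* `hecke_of_whit` : the Hecke eigen-property passes from `W` to the sum of the expansion (formal).
* `theta_of_leaves : KernelC → AdeleQuotC → CuspOfWhitC → MeanOfWhitC → NeZeroOfWhitC → ThetaC`.
-/

set_option autoImplicit false

open IsDedekindDomain NumberField AutomorphicForm
open scoped MatrixGroups

noncomputable section

namespace Fermat.Agent.LT.A2

open Fermat.Agent.LT.H130 Fermat.Agent.LT.H556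

section Hecke

variable {K : Type} [Field K] [NumberField K]

/-- `diag(α, 1)`, `α ∈ K^×`, in `GL₂(𝔸_K)`. -/
def ratDiag950 (α : Kˣ) : A0.G K :=
  Matrix.GeneralLinearGroup.map (algebraMap K (A0.Adl K))
    (Matrix.GeneralLinearGroup.mkOfDetNeZero !![(α : K), 0; 0, 1]
      (by simp [Matrix.det_fin_two]))

theorem isRatDiag_ratDiag950 : IsRatDiag (ratDiag950 (K := K)) := by
  intro α
  ext i j
  fin_cases i <;> fin_cases j <;> simp [ratDiag950, Matrix.GeneralLinearGroup.mkOfDetNeZero]

theorem summable_whit950 {ψ : A0.Adl K → ℂ} {φ W : A0.G K → ℂ} (h : IsWhitExp ψ φ W)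
    (g : A0.G K) : Summable fun α : Kˣ => W (ratDiag950 α * g) := by
  obtain ⟨b, hb, hle⟩ := h.loc_summable {g} isCompact_singleton
  exact Summable.of_norm_bounded hb fun α => hle _ isRatDiag_ratDiag950 α g rfl

/-- The Hecke eigen-property passes from the Whittaker function to the sum of the expansion. -/
theorem hecke_of_whit950 {π : HeckeEigensystem K ℂ} {ψ : A0.Adl K → ℂ} {φ W : A0.G K → ℂ}
    (h : PreCusp π ψ φ W) (v : HeightOneSpectrum (𝓞 K)) (hv : ¬ v.asIdeal ∣ π.level) :
    A0.IsHeckeEigenAt φ v (π.a v) (π.b v) := by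
  obtain ⟨hT, hS⟩ := h.W_hecke v hv
  have hexp := h.whit.expansion _ isRatDiag_ratDiag950
  refine ⟨fun H hH g => ?_, fun z hz g => ?_⟩
  · have h1 : ∀ x ∈ H, φ (g * x) = ∑' α : Kˣ, W (ratDiag950 α * g * x) := by
      intro x _
      rw [hexp (g * x)]
      simp only [mul_assoc]
    rw [Finset.sum_congr rfl h1]
    rw [← Summable.tsum_finsetSum]
    · rw [hexp g, ← tsum_mul_left]
      exact tsum_congr fun α => hT H hH (ratDiag950 α * g)
    · intro x _
      have := summable_whit950 h.whit (g * x)
      simpa only [mul_assoc] using this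
  · rw [hexp (g * z), hexp g, ← tsum_mul_left]
    refine tsum_congr fun α => ?_
    rw [← mul_assoc]
    exact hS z hz (ratDiag950 α * g)

end Hecke

/-- **Block THETA, level 2**: `ThetaC` from its leaves. -/
theorem theta_of_leaves (hK : KernelC) (hQ : AdeleQuotC) (hC : CuspOfWhitC) (hM : MeanOfWhitC)
    (hN : NeZeroOfWhitC) : ThetaC := by
  intro K L _ _ _ _ _ h2 hcx χ hχ hfin hns
  obtain ⟨π, ψ, φ, W, hpre, hind⟩ := hK K L h2 hcx χ hχ hfin hns
  refine ⟨π, ⟨φ, ?_⟩, hind⟩
  exact
    { cont := hpre.cont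
      bdd := hpre.bdd
      ne_zero := hN hQ K π ψ φ W hpre
      left_inv := hpre.left_inv
      level_inv := hpre.level_inv
      arch_scalar := hpre.arch_scalar
      arch_compact := hpre.arch_compact
      mean_complex := hM K π ψ φ W hpre
      mean_real := fun w hw =>
        absurd (hcx w) (InfinitePlace.not_isComplex_iff_isReal.mpr hw)
      cuspidal := hC hQ K π ψ φ W hpre
      hecke := fun v hv => hecke_of_whit950 hpre v hv }

end Fermat.Agent.LT.A2

end
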