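import Fermat.Agent.LT.A2.Spec

/-!
# Row LT, tower A2 -- the PROVED tops (helper950)

* `a2_of_theta_galSeed : ThetaC → GalSeedC → A2_556` (level 1).
-/

set_option autoImplicit false

open IsDedekindDomain NumberField AutomorphicForm

noncomputable section

namespace Fermat.Agent.LT.A2

open Fermat.Agent.LT.H130 Fermat.Agent.LT.H556

/-- **Tower A2, level 1**: the wall leaf `A2_556` (VERBATIM, helper556) from `ThetaC` and
`GalSeedC`. -/
theorem a2_of_theta_galSeed (hθ : ThetaC) (hg : GalSeedC) : WT.A2_556 := by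
  intro ρ Ψ hyp
  obtain ⟨ι, hNF, L, hF, hNL, hAlg, χ, h2, hcx, hχ, hfin, hns, hmatch⟩ := hg ρ Ψ hyp
  obtain ⟨π, hcusp, hind⟩ := hθ (fieldE ρ) L h2 hcx χ hχ hfin hns
  exact ⟨ι, hNF, π, hcusp, hmatch π hind⟩

end Fermat.Agent.LT.A2

end
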