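import Fermat.Agent.LT.A2.Kernel
import Fermat.Agent.LT.A2.ThetaTop
import Fermat.Agent.LT.A2.Top

/-!
# Row LT, tower A2 -- the PROVED tops of level 3 and the tower top (helper950)

* `kernelT_of_leaves` : `KernelTC` from `WeilLocalC`, `Poisson2C`, `HasseNormC`, `ThetaInvC`,
  `LiftExC`, `WhitExC`, `ExpC`, `InvC`;
* `kernel_of_leaves`  : `KernelC` from `TorusCharC` and `KernelTC`;
* `a2_top` : the wall leaf `A2_556` (VERBATIM) from ALL the leaves of the tower.
-/

set_option autoImplicit false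

open IsDedekindDomain NumberField AutomorphicForm MeasureTheory
open scoped MatrixGroups

noncomputable section

namespace Fermat.Agent.LT.A2

open Fermat.Agent.LT.H130 Fermat.Agent.LT.H556

/-- **Level 3**: the kernel in torus coordinates from its leaves. -/
theorem kernelT_of_leaves (hWL : WeilLocalC) (hP : Poisson2C) (hH : HasseNormC)
    (hTI : ThetaInvC) (hLE : LiftExC) (hWE : WhitExC) (hE : ExpC) (hI : InvC) : KernelTC := by
  intro K _ _ t n χT hT hcx 𝔡 h𝔡
  obtain ⟨D, ht, hn, hχ, hle, hGood, hind, hφ, hW⟩ := hWL K t n χT hT hcx 𝔡 h𝔡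
  subst ht hn hχ
  have hinv : D.ThetaInv := hTI hP K D hGood
  obtain ⟨φ, hφL⟩ := hLE hH K D hGood hinv
  obtain ⟨W, hWW⟩ := hWE K D hGood
  obtain ⟨hcont, hbdd⟩ := hφ φ hφL
  obtain ⟨hWc, hWne, hWsum, hWmean, hWhecke⟩ := hW W hWW
  obtain ⟨hequiv, hexp⟩ := hE hH K D hGood hinv φ W hφL hWW
  obtain ⟨hlev, hsc, hcp⟩ := hI K D hGood φ hφL
  refine ⟨D.π, D.ψ, φ, W, ?_, hind, hle⟩
  exact
    { char := hGood.char
      cont := hcont
      bdd := hbdd
      left_inv := hφL.left_inv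
      level_inv := hlev
      arch_scalar := hsc
      arch_compact := hcp
      whit := ⟨hequiv, hWsum, hexp⟩
      W_cont := hWc
      W_ne := hWne
      W_mean := hWmean
      W_hecke := hWhecke }

/-- **Level 3**: `KernelC` from the dictionary and the kernel in torus coordinates. -/
theorem kernel_of_leaves (hTC : TorusCharC) (hKT : KernelTC) : KernelC := by
  intro K L _ _ _ _ _ h2 hcx χ hχ hfin hns
  obtain ⟨t, n, χT, 𝔡, h𝔡, hT, hdict⟩ := hTC K L h2 hcx χ hχ hfin hns
  obtain ⟨π, ψ, φ, W, hpre, hindT, hle⟩ := hKT K t n χT hT hcx 𝔡 h𝔡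
  exact ⟨π, ψ, φ, W, hpre, hdict π hindT hle⟩

/-- **THE TOWER TOP**: the wall leaf `A2_556` (helper556, VERBATIM) from the leaves of tower A2.
Interfaces with other towers: `AdeleQuotC` (T1 / T3), `Poisson2C` (T3), `HasseNormC` (CFT);
`GalSeedC` is cut by helper38 (uses tower CFT). -/
theorem a2_top (hGal : GalSeedC) (hTC : TorusCharC) (hWL : WeilLocalC) (hP : Poisson2C)
    (hH : HasseNormC) (hTI : ThetaInvC) (hLE : LiftExC) (hWE : WhitExC) (hE : ExpC) (hI : InvC)
    (hQ : AdeleQuotC) (hC : CuspOfWhitC) (hM : MeanOfWhitC) (hN : NeZeroOfWhitC) :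
    WT.A2_556 :=
  a2_of_theta_galSeed
    (theta_of_leaves (kernel_of_leaves hTC (kernelT_of_leaves hWL hP hH hTI hLE hWE hE hI))
      hQ hC hM hN)
    hGal

end Fermat.Agent.LT.A2

end
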